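/-
S16 / LOWER BOUND (cohomological route), shared definitions (helper7).  Frozen interface.

`LbSys Γ` = a finite family of integer matrices (coset representatives of a Hecke double coset)
which right multiplication by `Γ` permutes up to left multiplication by `Γ`.
`LbSys.coh` = the induced ("transfer") operator on `Hom(Γ, A)`.
-/
import Mathlib

set_option autoImplicit false

open CongruenceSubgroup
open scoped MatrixGroups

namespace Fermat.Agent.S16

/-- A Hecke coset system for `Γ ≤ SL(2, ℤ)`. -/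
structure LbSys (Γ : Subgroup SL(2, ℤ)) where
  ι : Type
  fin : Fintype ι
  mat : ι → Matrix (Fin 2) (Fin 2) ℤ
  det_pos : ∀ i, 0 < (mat i).det
  ex : ∀ (γ : Γ) (i : ι), ∃! q : ι × Γ,
    mat i * ((γ : SL(2, ℤ)) : Matrix (Fin 2) (Fin 2) ℤ)
      = ((q.2 : SL(2, ℤ)) : Matrix (Fin 2) (Fin 2) ℤ) * mat q.1

namespace LbSys

variable {Γ : Subgroup SL(2, ℤ)} (S : LbSys Γ)

instance : Fintype S.ι := S.fin

/-- the index `i'` with `α_i γ = κ α_{i'}`. -/
noncomputable def perm (γ : Γ) (i : S.ι) : S.ι := (S.ex γ i).exists.choose.1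

/-- the element `κ ∈ Γ` with `α_i γ = κ α_{i'}`. -/
noncomputable def kap (γ : Γ) (i : S.ι) : Γ := (S.ex γ i).exists.choose.2

theorem mat_mul (γ : Γ) (i : S.ι) :
    S.mat i * ((γ : SL(2, ℤ)) : Matrix (Fin 2) (Fin 2) ℤ)
      = ((S.kap γ i : SL(2, ℤ)) : Matrix (Fin 2) (Fin 2) ℤ) * S.mat (S.perm γ i) :=
  (S.ex γ i).exists.choose_spec

theorem eq_of_mat_mul {γ : Γ} {i j : S.ι} {κ : Γ}
    (h : S.mat i * ((γ : SL(2, ℤ)) : Matrix (Fin 2) (Fin 2) ℤ)
      = ((κ : SL(2, ℤ)) : Matrix (Fin 2) (Fin 2) ℤ) * S.mat j) :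
    S.perm γ i = j ∧ S.kap γ i = κ := by
  have h1 := (S.ex γ i).unique (y₁ := (S.perm γ i, S.kap γ i)) (y₂ := (j, κ)) (S.mat_mul γ i) h
  exact ⟨congrArg Prod.fst h1, congrArg Prod.snd h1⟩

theorem perm_mul (γ δ : Γ) (i : S.ι) : S.perm (γ * δ) i = S.perm δ (S.perm γ i) := by
  refine (S.eq_of_mat_mul (κ := S.kap γ i * S.kap δ (S.perm γ i)) ?_).1
  rw [Subgroup.coe_mul, Matrix.SpecialLinearGroup.coe_mul, ← Matrix.mul_assoc, S.mat_mul γ i,
    Matrix.mul_assoc, S.mat_mul δ (S.perm γ i), ← Matrix.mul_assoc, Subgroup.coe_mul,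
    Matrix.SpecialLinearGroup.coe_mul]

theorem kap_mul (γ δ : Γ) (i : S.ι) :
    S.kap (γ * δ) i = S.kap γ i * S.kap δ (S.perm γ i) := by
  refine (S.eq_of_mat_mul (j := S.perm δ (S.perm γ i)) ?_).2
  rw [Subgroup.coe_mul, Matrix.SpecialLinearGroup.coe_mul, ← Matrix.mul_assoc, S.mat_mul γ i,
    Matrix.mul_assoc, S.mat_mul δ (S.perm γ i), ← Matrix.mul_assoc, Subgroup.coe_mul,
    Matrix.SpecialLinearGroup.coe_mul]

theorem perm_one (i : S.ι) : S.perm 1 i = i :=
  (S.eq_of_mat_mul (κ := 1) (by simp)).1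

theorem kap_one (i : S.ι) : S.kap 1 i = 1 :=
  (S.eq_of_mat_mul (j := i) (by simp)).2

theorem perm_inv_perm (γ : Γ) (i : S.ι) : S.perm γ⁻¹ (S.perm γ i) = i := by
  rw [← S.perm_mul, mul_inv_cancel, S.perm_one]

theorem perm_perm_inv (γ : Γ) (i : S.ι) : S.perm γ (S.perm γ⁻¹ i) = i := by
  rw [← S.perm_mul, inv_mul_cancel, S.perm_one]

/-- `perm γ` as a permutation of the index set. -/
noncomputable def permEquiv (γ : Γ) : S.ι ≃ S.ι where
  toFun := S.perm γ
  invFun := S.perm γ⁻¹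
  left_inv := S.perm_inv_perm γ
  right_inv := S.perm_perm_inv γ

/-- The cohomological Hecke operator on `Hom(Γ, A)`: `(T φ)(γ) = ∑ i, φ (κ_i(γ))`. -/
noncomputable def coh (A : Type*) [AddCommGroup A] :
    (Additive Γ →+ A) →+ (Additive Γ →+ A) where
  toFun φ :=
    { toFun := fun γ => ∑ i, φ (Additive.ofMul (S.kap (Additive.toMul γ) i))
      map_zero' := by
        simp only [toMul_zero, S.kap_one, ofMul_one, map_zero, Finset.sum_const_zero]
      map_add' := by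
        intro γ δ
        simp only [toMul_add, S.kap_mul, ofMul_mul, map_add, Finset.sum_add_distrib]
        congr 1
        exact Equiv.sum_comp (S.permEquiv (Additive.toMul γ))
          (fun i => φ (Additive.ofMul (S.kap (Additive.toMul δ) i))) }
  map_zero' := by
    refine AddMonoidHom.ext fun γ => ?_
    show ∑ i, (0 : Additive Γ →+ A) (Additive.ofMul (S.kap (Additive.toMul γ) i)) = 0
    simp
  map_add' := by
    intro φ ψ
    refine AddMonoidHom.ext fun γ => ?_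
    show ∑ i, (φ + ψ) (Additive.ofMul (S.kap (Additive.toMul γ) i))
      = ∑ i, φ (Additive.ofMul (S.kap (Additive.toMul γ) i))
        + ∑ i, ψ (Additive.ofMul (S.kap (Additive.toMul γ) i))
    simp [Finset.sum_add_distrib]

theorem coh_apply (A : Type*) [AddCommGroup A] (φ : Additive Γ →+ A) (γ : Γ) :
    S.coh A φ (Additive.ofMul γ) = ∑ i, φ (Additive.ofMul (S.kap γ i)) := rfl

/-- naturality in the coefficient group. -/
theorem coh_comp {A B : Type*} [AddCommGroup A] [AddCommGroup B] (g : A →+ B)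
    (φ : Additive Γ →+ A) : S.coh B (g.comp φ) = g.comp (S.coh A φ) := by
  refine AddMonoidHom.ext fun γ => ?_
  obtain ⟨γ, rfl⟩ := Additive.ofMul.surjective γ
  rw [AddMonoidHom.comp_apply, coh_apply, coh_apply, map_sum]
  rfl

end LbSys

/-- coset representatives: `none ↦ !![ℓ, 0; 0, 1]`, `some j ↦ !![1, j; 0, ℓ]`. -/
def lbMat (ℓ : ℕ) : Option (Fin ℓ) → Matrix (Fin 2) (Fin 2) ℤ
  | none => !![(ℓ : ℤ), 0; 0, 1]
  | some j => !![1, ((j : ℕ) : ℤ); 0, (ℓ : ℤ)]

/-- the Shimura class `γ ↦ (d mod p) ^ 12`, with values in the (additive) group `(ZMod p)ˣ`. -/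
noncomputable def lbShimura (p : ℕ) : Additive (Gamma0 p) →+ Additive (ZMod p)ˣ :=
  MonoidHom.toAdditive ((powMonoidHom 12).comp (Gamma0Map p).toHomUnits)

theorem lbShimura_apply (p : ℕ) (γ : Gamma0 p) :
    Additive.toMul (lbShimura p (Additive.ofMul γ)) = ((Gamma0Map p).toHomUnits γ) ^ 12 := rfl

theorem lbShimura_unit_coe (p : ℕ) (γ : Gamma0 p) :
    (((Gamma0Map p).toHomUnits γ : (ZMod p)ˣ) : ZMod p)
      = ((((γ : SL(2, ℤ)) : Matrix (Fin 2) (Fin 2) ℤ) 1 1 : ℤ) : ZMod p) := rfl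

end Fermat.Agent.S16
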