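/-
S16 / LOWER BOUND (cohomological route), module C1 (helper7): the Hecke coset systems.
`lb_coset_T`, `lb_coset_U` (integer-matrix exchange `α_i γ = κ α_{i'}`, existence and uniqueness),
`lbSysT`, `lbSysU : LbSys (Gamma0 N)`.  Mathlib + LB/Defs only.
-/
import Mathlib
import Fermat.Agent.S16.LB.Defs

set_option autoImplicit false

open CongruenceSubgroup
open scoped MatrixGroups

namespace Fermat.Agent.S16

theorem lbMat_none (ℓ : ℕ) : lbMat ℓ none = !![(ℓ : ℤ), 0; 0, 1] := rfl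
theorem lbMat_some (ℓ : ℕ) (j : Fin ℓ) : lbMat ℓ (some j) = !![1, ((j : ℕ) : ℤ); 0, (ℓ : ℤ)] := rfl

/-- entries of `κ * lbMat ℓ (some j)`. -/
theorem lb_mul_some (K : Matrix (Fin 2) (Fin 2) ℤ) (ℓ : ℕ) (j : Fin ℓ) :
    K * lbMat ℓ (some j) = !![K 0 0, K 0 0 * ((j : ℕ) : ℤ) + K 0 1 * ℓ;
      K 1 0, K 1 0 * ((j : ℕ) : ℤ) + K 1 1 * ℓ] := by
  rw [lbMat_some]
  ext a b
  fin_cases a <;> fin_cases b <;> simp [Matrix.mul_apply, Fin.sum_univ_two]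

theorem lb_mul_none (K : Matrix (Fin 2) (Fin 2) ℤ) (ℓ : ℕ) :
    K * lbMat ℓ none = !![K 0 0 * ℓ, K 0 1; K 1 0 * ℓ, K 1 1] := by
  rw [lbMat_none]
  ext a b
  fin_cases a <;> fin_cases b <;> simp [Matrix.mul_apply, Fin.sum_univ_two]

theorem lb_some_mul (K : Matrix (Fin 2) (Fin 2) ℤ) (ℓ : ℕ) (j : Fin ℓ) :
    lbMat ℓ (some j) * K = !![K 0 0 + ((j : ℕ) : ℤ) * K 1 0, K 0 1 + ((j : ℕ) : ℤ) * K 1 1;
      ℓ * K 1 0, ℓ * K 1 1] := by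
  rw [lbMat_some]
  ext a b
  fin_cases a <;> fin_cases b <;> simp [Matrix.mul_apply, Fin.sum_univ_two]

theorem lb_none_mul (K : Matrix (Fin 2) (Fin 2) ℤ) (ℓ : ℕ) :
    lbMat ℓ none * K = !![ℓ * K 0 0, ℓ * K 0 1; K 1 0, K 1 1] := by
  rw [lbMat_none]
  ext a b
  fin_cases a <;> fin_cases b <;> simp [Matrix.mul_apply, Fin.sum_univ_two]

theorem lb_of_eq {a b c d a' b' c' d' : ℤ} (h : !![a, b; c, d] = !![a', b'; c', d']) :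
    a = a' ∧ b = b' ∧ c = c' ∧ d = d' := by
  have h00 := congrFun (congrFun h 0) 0
  have h01 := congrFun (congrFun h 0) 1
  have h10 := congrFun (congrFun h 1) 0
  have h11 := congrFun (congrFun h 1) 1
  simp at h00 h01 h10 h11
  exact ⟨h00, h01, h10, h11⟩

theorem lb_sl_det (K : SL(2, ℤ)) :
    (K : Matrix (Fin 2) (Fin 2) ℤ) 0 0 * (K : Matrix (Fin 2) (Fin 2) ℤ) 1 1
      - (K : Matrix (Fin 2) (Fin 2) ℤ) 0 1 * (K : Matrix (Fin 2) (Fin 2) ℤ) 1 0 = 1 := by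
  have := K.2
  rw [Matrix.det_fin_two] at this
  exact this

/-- uniqueness: the representatives are pairwise inequivalent. -/
theorem lb_coset_unique {ℓ : ℕ} (hℓ : 2 ≤ ℓ) (i₁ i₂ : Option (Fin ℓ)) (K₁ K₂ : SL(2, ℤ))
    (h : (K₁ : Matrix (Fin 2) (Fin 2) ℤ) * lbMat ℓ i₁
      = (K₂ : Matrix (Fin 2) (Fin 2) ℤ) * lbMat ℓ i₂) : i₁ = i₂ ∧ K₁ = K₂ := by
  have hℓ0 : (ℓ : ℤ) ≠ 0 := by exact_mod_cast (by omega : ℓ ≠ 0)
  have d1 := lb_sl_det K₁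
  have d2 := lb_sl_det K₂
  have hext : ∀ {A B : SL(2, ℤ)}, (A : Matrix (Fin 2) (Fin 2) ℤ) 0 0 = (B : Matrix (Fin 2) (Fin 2) ℤ) 0 0 →
      (A : Matrix (Fin 2) (Fin 2) ℤ) 0 1 = (B : Matrix (Fin 2) (Fin 2) ℤ) 0 1 →
      (A : Matrix (Fin 2) (Fin 2) ℤ) 1 0 = (B : Matrix (Fin 2) (Fin 2) ℤ) 1 0 →
      (A : Matrix (Fin 2) (Fin 2) ℤ) 1 1 = (B : Matrix (Fin 2) (Fin 2) ℤ) 1 1 → A = B := by
    intro A B h00 h01 h10 h11
    apply Subtype.ext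
    ext a b
    fin_cases a <;> fin_cases b <;> assumption
  rcases i₁ with _ | j₁ <;> rcases i₂ with _ | j₂
  · rw [lb_mul_none, lb_mul_none] at h
    obtain ⟨h00, h01, h10, h11⟩ := lb_of_eq h
    exact ⟨rfl, hext (mul_right_cancel₀ hℓ0 h00) h01 (mul_right_cancel₀ hℓ0 h10) h11⟩
  · exfalso
    rw [lb_mul_none, lb_mul_some] at h
    obtain ⟨h00, h01, h10, h11⟩ := lb_of_eq h
    -- ℓ ∣ K₂ 0 0 and ℓ ∣ K₂ 1 0, so ℓ ∣ det K₂ = 1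
    have hd : (ℓ : ℤ) ∣ 1 := by
      rw [← d2, ← h00, ← h10]
      exact ⟨(K₁ : Matrix (Fin 2) (Fin 2) ℤ) 0 0 * (K₂ : Matrix (Fin 2) (Fin 2) ℤ) 1 1
        - (K₂ : Matrix (Fin 2) (Fin 2) ℤ) 0 1 * (K₁ : Matrix (Fin 2) (Fin 2) ℤ) 1 0, by ring⟩
    have := Int.le_of_dvd one_pos hd
    omega
  · exfalso
    rw [lb_mul_none, lb_mul_some] at h
    obtain ⟨h00, h01, h10, h11⟩ := lb_of_eq h
    have hd : (ℓ : ℤ) ∣ 1 := by
      rw [← d1, h00, h10]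
      exact ⟨(K₂ : Matrix (Fin 2) (Fin 2) ℤ) 0 0 * (K₁ : Matrix (Fin 2) (Fin 2) ℤ) 1 1
        - (K₁ : Matrix (Fin 2) (Fin 2) ℤ) 0 1 * (K₂ : Matrix (Fin 2) (Fin 2) ℤ) 1 0, by ring⟩
    have := Int.le_of_dvd one_pos hd
    omega
  · rw [lb_mul_some, lb_mul_some] at h
    obtain ⟨h00, h01, h10, h11⟩ := lb_of_eq h
    -- ℓ ∣ (j₁ - j₂)
    have hdvd : (ℓ : ℤ) ∣ ((j₁ : ℕ) : ℤ) - ((j₂ : ℕ) : ℤ) := by
      have e : ((j₁ : ℕ) : ℤ) - ((j₂ : ℕ) : ℤ) = (ℓ : ℤ) *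
          (((K₂ : Matrix (Fin 2) (Fin 2) ℤ) 0 1 - (K₁ : Matrix (Fin 2) (Fin 2) ℤ) 0 1)
              * (K₁ : Matrix (Fin 2) (Fin 2) ℤ) 1 1
            - (K₁ : Matrix (Fin 2) (Fin 2) ℤ) 0 1
              * ((K₂ : Matrix (Fin 2) (Fin 2) ℤ) 1 1 - (K₁ : Matrix (Fin 2) (Fin 2) ℤ) 1 1)) := by
        linear_combination (((j₁ : ℕ) : ℤ) - ((j₂ : ℕ) : ℤ)) * (-d1)
          + (K₁ : Matrix (Fin 2) (Fin 2) ℤ) 1 1 * (h01 - ((j₂ : ℕ) : ℤ) * h00)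
          - (K₁ : Matrix (Fin 2) (Fin 2) ℤ) 0 1 * (h11 - ((j₂ : ℕ) : ℤ) * h10)
      exact ⟨_, e⟩
    have hj : (j₁ : ℕ) = (j₂ : ℕ) := by
      have h1 := j₁.2
      have h2 := j₂.2
      obtain ⟨t, ht⟩ := hdvd
      have : t = 0 := by
        by_contra ht0
        have : (1 : ℤ) ≤ |t| := Int.one_le_abs ht0
        have habs : |((j₁ : ℕ) : ℤ) - ((j₂ : ℕ) : ℤ)| = (ℓ : ℤ) * |t| := by
          rw [ht, abs_mul, abs_of_nonneg (by positivity : (0 : ℤ) ≤ ℓ)]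
        have hlt : |((j₁ : ℕ) : ℤ) - ((j₂ : ℕ) : ℤ)| < (ℓ : ℤ) := by
          rw [abs_lt]; constructor <;> omega
        nlinarith
      rw [this, mul_zero] at ht
      omega
    have hj' : j₁ = j₂ := Fin.ext hj
    subst hj'
    refine ⟨rfl, hext h00 ?_ h10 ?_⟩
    · have : (K₁ : Matrix (Fin 2) (Fin 2) ℤ) 0 1 * ℓ = (K₂ : Matrix (Fin 2) (Fin 2) ℤ) 0 1 * ℓ := by
        linear_combination h01 - ((j₁ : ℕ) : ℤ) * h00
      exact mul_right_cancel₀ hℓ0 this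
    · have : (K₁ : Matrix (Fin 2) (Fin 2) ℤ) 1 1 * ℓ = (K₂ : Matrix (Fin 2) (Fin 2) ℤ) 1 1 * ℓ := by
        linear_combination h11 - ((j₁ : ℕ) : ℤ) * h10
      exact mul_right_cancel₀ hℓ0 this


/-- an element of `Γ₀(N)` from its entries. -/
def lbMk (N : ℕ) (x y z w : ℤ) (hdet : x * w - y * z = 1) (hz : (N : ℤ) ∣ z) : Gamma0 N :=
  ⟨(⟨!![x, y; z, w], by rw [Matrix.det_fin_two_of]; exact hdet⟩ : SL(2, ℤ)),
    Gamma0_mem.mpr ((ZMod.intCast_zmod_eq_zero_iff_dvd z N).mpr hz)⟩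

theorem lbMk_coe (N : ℕ) (x y z w : ℤ) (hdet : x * w - y * z = 1) (hz : (N : ℤ) ∣ z) :
    (((lbMk N x y z w hdet hz : Gamma0 N) : SL(2, ℤ)) : Matrix (Fin 2) (Fin 2) ℤ)
      = !![x, y; z, w] := rfl

theorem lb_Gamma0_dvd {N : ℕ} (γ : Gamma0 N) :
    (N : ℤ) ∣ ((γ : SL(2, ℤ)) : Matrix (Fin 2) (Fin 2) ℤ) 1 0 :=
  (ZMod.intCast_zmod_eq_zero_iff_dvd _ N).mp (Gamma0_mem.mp γ.2)

theorem lb_exists_fin {ℓ : ℕ} (hℓ : ℓ.Prime) (u v : ℤ) (hu : ¬ (ℓ : ℤ) ∣ u) :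
    ∃ j : Fin ℓ, (ℓ : ℤ) ∣ v - ((j : ℕ) : ℤ) * u := by
  have : Fact ℓ.Prime := ⟨hℓ⟩
  have hu' : ((u : ℤ) : ZMod ℓ) ≠ 0 :=
    fun h => hu ((ZMod.intCast_zmod_eq_zero_iff_dvd u ℓ).mp h)
  refine ⟨⟨(((v : ZMod ℓ)) * ((u : ZMod ℓ))⁻¹).val, ZMod.val_lt _⟩, ?_⟩
  rw [← ZMod.intCast_zmod_eq_zero_iff_dvd]
  push_cast
  rw [ZMod.natCast_val, ZMod.cast_id', id, inv_mul_cancel_right₀ hu', sub_self]

theorem lb_mk_eq {a b c d a' b' c' d' : ℤ} (h1 : a = a') (h2 : b = b') (h3 : c = c')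
    (h4 : d = d') : !![a, b; c, d] = !![a', b'; c', d'] := by
  rw [h1, h2, h3, h4]

theorem lb_some_mul' (ℓ : ℕ) (j : Fin ℓ) (x y z w : ℤ) :
    lbMat ℓ (some j) * !![x, y; z, w]
      = !![x + ((j : ℕ) : ℤ) * z, y + ((j : ℕ) : ℤ) * w; ℓ * z, ℓ * w] := by
  rw [lb_some_mul]; rfl

theorem lb_none_mul' (ℓ : ℕ) (x y z w : ℤ) :
    lbMat ℓ none * !![x, y; z, w] = !![ℓ * x, ℓ * y; z, w] := by
  rw [lb_none_mul]; rfl

theorem lb_mul_some' (ℓ : ℕ) (j : Fin ℓ) (x y z w : ℤ) :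
    !![x, y; z, w] * lbMat ℓ (some j)
      = !![x, x * ((j : ℕ) : ℤ) + y * ℓ; z, z * ((j : ℕ) : ℤ) + w * ℓ] := by
  rw [lb_mul_some]; rfl

theorem lb_mul_none' (ℓ : ℕ) (x y z w : ℤ) :
    !![x, y; z, w] * lbMat ℓ none = !![x * ℓ, y; z * ℓ, w] := by
  rw [lb_mul_none]; rfl

/-- `T_ℓ`, `ℓ ∤ N`: the `ℓ + 1` representatives `lbMat ℓ`. -/
theorem lb_coset_T {N ℓ : ℕ} (hℓ : ℓ.Prime) (hℓN : ¬ ℓ ∣ N) (γ : Gamma0 N)
    (i : Option (Fin ℓ)) :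
    ∃! q : Option (Fin ℓ) × Gamma0 N,
      lbMat ℓ i * ((γ : SL(2, ℤ)) : Matrix (Fin 2) (Fin 2) ℤ)
        = ((q.2 : SL(2, ℤ)) : Matrix (Fin 2) (Fin 2) ℤ) * lbMat ℓ q.1 := by
  have hdet := lb_sl_det (γ : SL(2, ℤ))
  have hc := lb_Gamma0_dvd γ
  have hg : ((γ : SL(2, ℤ)) : Matrix (Fin 2) (Fin 2) ℤ) = !![_, _; _, _] := Matrix.eta_fin_two _
  generalize ((γ : SL(2, ℤ)) : Matrix (Fin 2) (Fin 2) ℤ) 0 0 = a at hdet hg
  generalize ((γ : SL(2, ℤ)) : Matrix (Fin 2) (Fin 2) ℤ) 0 1 = b at hdet hg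
  generalize ((γ : SL(2, ℤ)) : Matrix (Fin 2) (Fin 2) ℤ) 1 0 = c at hdet hg hc
  generalize ((γ : SL(2, ℤ)) : Matrix (Fin 2) (Fin 2) ℤ) 1 1 = d at hdet hg
  rw [hg]
  -- uniqueness is generic
  have huniq : ∀ q₁ q₂ : Option (Fin ℓ) × Gamma0 N,
      lbMat ℓ i * !![a, b; c, d]
        = ((q₁.2 : SL(2, ℤ)) : Matrix (Fin 2) (Fin 2) ℤ) * lbMat ℓ q₁.1 →
      lbMat ℓ i * !![a, b; c, d]
        = ((q₂.2 : SL(2, ℤ)) : Matrix (Fin 2) (Fin 2) ℤ) * lbMat ℓ q₂.1 → q₁ = q₂ := by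
    intro q₁ q₂ h₁ h₂
    obtain ⟨e1, e2⟩ := lb_coset_unique hℓ.two_le q₁.1 q₂.1 q₁.2 q₂.2 (h₁.symm.trans h₂)
    exact Prod.ext e1 (Subtype.ext e2)
  suffices hex : ∃ q : Option (Fin ℓ) × Gamma0 N,
      lbMat ℓ i * !![a, b; c, d]
        = ((q.2 : SL(2, ℤ)) : Matrix (Fin 2) (Fin 2) ℤ) * lbMat ℓ q.1 by
    obtain ⟨q, hq⟩ := hex
    exact ⟨q, hq, fun q' hq' => huniq q' q hq' hq⟩
  rcases i with _ | j
  · -- i = none
    by_cases hlc : (ℓ : ℤ) ∣ c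
    · obtain ⟨c', hc'⟩ := hlc
      have hNc' : (N : ℤ) ∣ c' := by
        have hcop : IsCoprime (N : ℤ) (ℓ : ℤ) := by
          rw [Int.isCoprime_iff_gcd_eq_one, Int.gcd_natCast_natCast]
          exact ((Nat.Prime.coprime_iff_not_dvd hℓ).mpr hℓN).symm
        exact hcop.dvd_of_dvd_mul_left (hc' ▸ hc)
      have hK : a * d - ℓ * b * c' = 1 := by linear_combination hdet + b * hc'
      refine ⟨(none, lbMk N a (ℓ * b) c' d hK hNc'), ?_⟩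
      show _ = ((lbMk N a (ℓ * b) c' d hK hNc' : Gamma0 N) : SL(2, ℤ)).1 * lbMat ℓ none
      rw [lb_none_mul', lbMk_coe, lb_mul_none']
      exact lb_mk_eq (by ring) rfl (by linear_combination hc') rfl
    · obtain ⟨j', t, ht⟩ := lb_exists_fin hℓ c d hlc
      have hK : ℓ * a * t - (b - ((j' : ℕ) : ℤ) * a) * c = 1 := by
        linear_combination (-a) * ht + hdet
      refine ⟨(some j', lbMk N (ℓ * a) (b - ((j' : ℕ) : ℤ) * a) c t hK hc), ?_⟩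
      show _ = ((lbMk N (ℓ * a) (b - ((j' : ℕ) : ℤ) * a) c t hK hc : Gamma0 N) : SL(2, ℤ)).1
        * lbMat ℓ (some j')
      rw [lb_none_mul', lbMk_coe, lb_mul_some']
      exact lb_mk_eq rfl (by ring) rfl (by linear_combination ht)
  · -- i = some j
    by_cases hla : (ℓ : ℤ) ∣ a + ((j : ℕ) : ℤ) * c
    · obtain ⟨a', ha'⟩ := hla
      have hK : a' * (ℓ * d) - (b + ((j : ℕ) : ℤ) * d) * c = 1 := by
        linear_combination (-d) * ha' + hdet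
      refine ⟨(none, lbMk N a' (b + ((j : ℕ) : ℤ) * d) c (ℓ * d) hK hc), ?_⟩
      show _ = ((lbMk N a' (b + ((j : ℕ) : ℤ) * d) c (ℓ * d) hK hc : Gamma0 N) : SL(2, ℤ)).1
        * lbMat ℓ none
      rw [lb_some_mul', lbMk_coe, lb_mul_none']
      exact lb_mk_eq (by linear_combination ha') rfl (by ring) rfl
    · obtain ⟨j', t, ht⟩ := lb_exists_fin hℓ (a + ((j : ℕ) : ℤ) * c) (b + ((j : ℕ) : ℤ) * d) hla
      have hK : (a + ((j : ℕ) : ℤ) * c) * (d - ((j' : ℕ) : ℤ) * c) - t * (ℓ * c) = 1 := by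
        linear_combination c * ht + hdet
      have hN : (N : ℤ) ∣ ℓ * c := Dvd.dvd.mul_left hc _
      refine ⟨(some j', lbMk N (a + ((j : ℕ) : ℤ) * c) t (ℓ * c) (d - ((j' : ℕ) : ℤ) * c)
        hK hN), ?_⟩
      show _ = ((lbMk N (a + ((j : ℕ) : ℤ) * c) t (ℓ * c) (d - ((j' : ℕ) : ℤ) * c) hK hN :
        Gamma0 N) : SL(2, ℤ)).1 * lbMat ℓ (some j')
      rw [lb_some_mul', lbMk_coe, lb_mul_some']
      exact lb_mk_eq rfl (by linear_combination ht) rfl (by ring)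

/-- `U_p`, `p ∣ N`: the `p` representatives `lbMat p (some j)`. -/
theorem lb_coset_U {N p : ℕ} (hp : p.Prime) (hpN : p ∣ N) (γ : Gamma0 N) (j : Fin p) :
    ∃! q : Fin p × Gamma0 N,
      lbMat p (some j) * ((γ : SL(2, ℤ)) : Matrix (Fin 2) (Fin 2) ℤ)
        = ((q.2 : SL(2, ℤ)) : Matrix (Fin 2) (Fin 2) ℤ) * lbMat p (some q.1) := by
  have hdet := lb_sl_det (γ : SL(2, ℤ))
  have hc := lb_Gamma0_dvd γ
  have hg : ((γ : SL(2, ℤ)) : Matrix (Fin 2) (Fin 2) ℤ) = !![_, _; _, _] := Matrix.eta_fin_two _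
  generalize ((γ : SL(2, ℤ)) : Matrix (Fin 2) (Fin 2) ℤ) 0 0 = a at hdet hg
  generalize ((γ : SL(2, ℤ)) : Matrix (Fin 2) (Fin 2) ℤ) 0 1 = b at hdet hg
  generalize ((γ : SL(2, ℤ)) : Matrix (Fin 2) (Fin 2) ℤ) 1 0 = c at hdet hg hc
  generalize ((γ : SL(2, ℤ)) : Matrix (Fin 2) (Fin 2) ℤ) 1 1 = d at hdet hg
  rw [hg]
  have hpc : (p : ℤ) ∣ c := (Int.natCast_dvd_natCast.mpr hpN).trans hc
  have hla : ¬ (p : ℤ) ∣ a + ((j : ℕ) : ℤ) * c := by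
    intro h
    have h1 : (p : ℤ) ∣ a := by
      have := dvd_sub h (Dvd.dvd.mul_left hpc ((j : ℕ) : ℤ))
      simpa using this
    have h2 : (p : ℤ) ∣ 1 := by
      rw [← hdet]
      exact dvd_sub (Dvd.dvd.mul_right h1 d) (Dvd.dvd.mul_left hpc b)
    have := Int.le_of_dvd one_pos h2
    have := hp.two_le
    omega
  obtain ⟨j', t, ht⟩ := lb_exists_fin hp (a + ((j : ℕ) : ℤ) * c) (b + ((j : ℕ) : ℤ) * d) hla
  have hK : (a + ((j : ℕ) : ℤ) * c) * (d - ((j' : ℕ) : ℤ) * c) - t * (p * c) = 1 := by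
    linear_combination c * ht + hdet
  have hN : (N : ℤ) ∣ p * c := Dvd.dvd.mul_left hc _
  have hq0 : lbMat p (some j) * !![a, b; c, d]
      = ((lbMk N (a + ((j : ℕ) : ℤ) * c) t (p * c) (d - ((j' : ℕ) : ℤ) * c)
        hK hN : Gamma0 N) : SL(2, ℤ)).1 * lbMat p (some j') := by
    rw [lb_some_mul', lbMk_coe, lb_mul_some']
    exact lb_mk_eq rfl (by linear_combination ht) rfl (by ring)
  refine ⟨(j', lbMk N (a + ((j : ℕ) : ℤ) * c) t (p * c) (d - ((j' : ℕ) : ℤ) * c)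
    hK hN), hq0, ?_⟩
  intro q hq
  obtain ⟨e1, e2⟩ := lb_coset_unique hp.two_le (some q.1) (some j') q.2 _ (hq.symm.trans hq0)
  exact Prod.ext (Option.some.inj e1) (Subtype.ext e2)

theorem lbMat_det_pos {ℓ : ℕ} (hℓ : 0 < ℓ) (i : Option (Fin ℓ)) : 0 < (lbMat ℓ i).det := by
  cases i <;> simp [lbMat, Matrix.det_fin_two_of] <;> exact_mod_cast hℓ

/-- the coset system of `T_ℓ` (`ℓ ∤ N`). -/
noncomputable def lbSysT {N ℓ : ℕ} (hℓ : ℓ.Prime) (hℓN : ¬ ℓ ∣ N) : LbSys (Gamma0 N) where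
  ι := Option (Fin ℓ)
  fin := inferInstance
  mat := lbMat ℓ
  det_pos := lbMat_det_pos hℓ.pos
  ex := lb_coset_T hℓ hℓN

/-- the coset system of `U_p` (`p ∣ N`). -/
noncomputable def lbSysU {N p : ℕ} (hp : p.Prime) (hpN : p ∣ N) : LbSys (Gamma0 N) where
  ι := Fin p
  fin := inferInstance
  mat := fun j => lbMat p (some j)
  det_pos := fun j => lbMat_det_pos hp.pos (some j)
  ex := lb_coset_U hp hpN

end Fermat.Agent.S16
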