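/-
S16 / LOWER BOUND (cohomological route): the two independently written transfer operators agree
(helper7).  `coh_T` / `coh_U` (S16/CohHecke) = `(lbSysT ..).coh` / `(lbSysU ..).coh` (S16/LB).
-/
import Fermat.Agent.S16.CohHecke
import Fermat.Agent.S16.LB.Coset

set_option autoImplicit false

open CongruenceSubgroup
open scoped MatrixGroups

namespace Fermat.Agent.S16

theorem lb_coh_matT_eq (ℓ : ℕ) (i : Option (Fin ℓ)) : coh_matT ℓ i = lbMat ℓ i := by
  cases i <;> rfl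

/-- the exchange data of `coh_T` and of `lbSysT` agree. -/
theorem lb_bridge_T_data {N ℓ : ℕ} (hℓ : ℓ.Prime) (hℓN : ¬ ℓ ∣ N) (γ : Gamma0 N)
    (i : Option (Fin ℓ)) :
    (lbSysT hℓ hℓN).perm γ i = coh_pi (coh_exT N hℓ hℓN) γ i ∧
      (lbSysT hℓ hℓN).kap γ i = coh_t (coh_exT N hℓ hℓN) γ i := by
  refine (lbSysT hℓ hℓN).eq_of_mat_mul ?_
  have h := coh_T_spec hℓ hℓN γ i
  rw [lb_coh_matT_eq, lb_coh_matT_eq] at h
  exact h

/-- the exchange data of `coh_U` and of `lbSysU` agree. -/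
theorem lb_bridge_U_data {N p : ℕ} (hp : p.Prime) (hpN : p ∣ N) (γ : Gamma0 N) (j : Fin p) :
    (lbSysU hp hpN).perm γ j = coh_pi (coh_exU N hp hpN) γ j ∧
      (lbSysU hp hpN).kap γ j = coh_t (coh_exU N hp hpN) γ j := by
  refine (lbSysU hp hpN).eq_of_mat_mul ?_
  exact coh_U_spec hp hpN γ j

/-- `coh_T` (S16/CohHecke) is the transfer operator of the coset system `lbSysT`. -/
theorem lb_bridge_T {N ℓ : ℕ} (hℓ : ℓ.Prime) (hℓN : ¬ ℓ ∣ N) (A : Type*) [AddCommGroup A] :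
    coh_T N hℓ hℓN A = (lbSysT hℓ hℓN).coh A := by
  refine AddMonoidHom.ext fun ψ => AddMonoidHom.ext fun γ => ?_
  obtain ⟨γ, rfl⟩ := Additive.ofMul.surjective γ
  rw [coh_T_apply, LbSys.coh_apply]
  refine Finset.sum_congr rfl fun i _ => ?_
  rw [(lb_bridge_T_data hℓ hℓN γ i).2]

/-- `coh_U` (S16/CohHecke) is the transfer operator of the coset system `lbSysU`. -/
theorem lb_bridge_U {N p : ℕ} (hp : p.Prime) (hpN : p ∣ N) (A : Type*) [AddCommGroup A] :
    coh_U N hp hpN A = (lbSysU hp hpN).coh A := by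
  refine AddMonoidHom.ext fun ψ => AddMonoidHom.ext fun γ => ?_
  obtain ⟨γ, rfl⟩ := Additive.ofMul.surjective γ
  rw [coh_U_apply, LbSys.coh_apply]
  refine Finset.sum_congr rfl fun i _ => ?_
  rw [(lb_bridge_U_data hp hpN γ i).2]

end Fermat.Agent.S16
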