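/-
S16 / lower bound, L-coh (helper2).  Bridge between helper7's `LbSys` transfer operators
(`LB/Defs`, `LB/Coset`) and the `heckeHom` package (`HeckeAbs`, `HeckeGamma0`):
`(lbSysT hℓ hℓN).coh A = heckeHom N ℓ A`, `(lbSysU hp hpN).coh A = heckeHom N p A`.
Consequences in the `LbSys` language: commutation with `jConjGamma0` and the Eisenstein
eigen-relations of the Shimura character.
-/
import Mathlib
import Fermat.Agent.S16.LB.Coset
import Fermat.Agent.S16.HeckeGamma0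
import Fermat.Agent.S16.ShimuraChar

set_option autoImplicit false

open CongruenceSubgroup ModularCurve ModularCurve.Period
open scoped MatrixGroups

namespace Fermat.Agent.S16

theorem hh_lbSysT_kap {N ℓ : ℕ} (hℓ : ℓ.Prime) (hℓN : ¬ ℓ ∣ N) (γ : Gamma0 N)
    (i : Option (Fin ℓ)) :
    (lbSysT hℓ hℓN).kap γ i = (hh_repsT N ℓ hℓ hℓN).κ i γ := by
  refine ((lbSysT hℓ hℓN).eq_of_mat_mul (j := (hh_repsT N ℓ hℓ hℓN).σ γ i) ?_).2
  have h := hh_repsT_int N ℓ hℓ hℓN i γ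
  have e : ∀ k : Option (Fin ℓ), (lbSysT hℓ hℓN).mat k = hh_repTInt ℓ k := by
    intro k
    rcases k with _ | k <;> rfl
  rw [e, e]
  exact h

theorem hh_lbSysU_kap {N p : ℕ} (hp : p.Prime) (hpN : p ∣ N) (γ : Gamma0 N) (i : Fin p) :
    (lbSysU hp hpN).kap γ i = (hh_repsU N p hp hpN).κ i γ := by
  refine ((lbSysU hp hpN).eq_of_mat_mul (j := (hh_repsU N p hp hpN).σ γ i) ?_).2
  have h := hh_repsU_int N p hp hpN i γ
  have e : ∀ k : Fin p, (lbSysU hp hpN).mat k = hh_mU p k := fun k => rfl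
  rw [e, e]
  exact h

/-- helper7's `T_ℓ` transfer operator is `heckeHom`. -/
theorem hh_lbSysT_coh {N ℓ : ℕ} (hℓ : ℓ.Prime) (hℓN : ¬ ℓ ∣ N) (A : Type*) [AddCommGroup A] :
    (lbSysT hℓ hℓN).coh A = heckeHom N ℓ A := by
  rw [heckeHom_of_not_dvd hℓ hℓN]
  refine AddMonoidHom.ext fun φ => AddMonoidHom.ext fun γ => ?_
  obtain ⟨γ, rfl⟩ := Additive.ofMul.surjective γ
  rw [LbSys.coh_apply, HeckeReps.op_apply]
  show ∑ i : Option (Fin ℓ), φ (Additive.ofMul ((lbSysT hℓ hℓN).kap γ i)) =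
    ∑ i : Option (Fin ℓ), φ (Additive.ofMul ((hh_repsT N ℓ hℓ hℓN).κ i γ))
  exact Finset.sum_congr rfl fun i _ =>
    congrArg (fun k => φ (Additive.ofMul k)) (hh_lbSysT_kap hℓ hℓN γ i)

/-- helper7's `U_p` transfer operator is `heckeHom`. -/
theorem hh_lbSysU_coh {N p : ℕ} (hp : p.Prime) (hpN : p ∣ N) (A : Type*) [AddCommGroup A] :
    (lbSysU hp hpN).coh A = heckeHom N p A := by
  rw [heckeHom_of_dvd hp hpN]
  refine AddMonoidHom.ext fun φ => AddMonoidHom.ext fun γ => ?_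
  obtain ⟨γ, rfl⟩ := Additive.ofMul.surjective γ
  rw [LbSys.coh_apply, HeckeReps.op_apply]
  show ∑ i : Fin p, φ (Additive.ofMul ((lbSysU hp hpN).kap γ i)) =
    ∑ i : Fin p, φ (Additive.ofMul ((hh_repsU N p hp hpN).κ i γ))
  exact Finset.sum_congr rfl fun i _ =>
    congrArg (fun k => φ (Additive.ofMul k)) (hh_lbSysU_kap hp hpN γ i)

/-! ### Commutation with the involution (statements C5 of helper7's skeleton) -/

theorem hh_lb_coh_jConj_T {N ℓ : ℕ} (hℓ : ℓ.Prime) (hℓN : ¬ ℓ ∣ N) {A : Type*} [AddCommGroup A]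
    (ψ : Additive (Gamma0 N) →+ A) :
    (lbSysT hℓ hℓN).coh A (ψ.comp (MonoidHom.toAdditive (jConjGamma0 N)))
      = ((lbSysT hℓ hℓN).coh A ψ).comp (MonoidHom.toAdditive (jConjGamma0 N)) := by
  rw [hh_lbSysT_coh]
  exact heckeHom_comp_jConj N ℓ ψ

theorem hh_lb_coh_jConj_U {N p : ℕ} (hp : p.Prime) (hpN : p ∣ N) {A : Type*} [AddCommGroup A]
    (ψ : Additive (Gamma0 N) →+ A) :
    (lbSysU hp hpN).coh A (ψ.comp (MonoidHom.toAdditive (jConjGamma0 N)))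
      = ((lbSysU hp hpN).coh A ψ).comp (MonoidHom.toAdditive (jConjGamma0 N)) := by
  rw [hh_lbSysU_coh]
  exact heckeHom_comp_jConj N p ψ

/-! ### Eigen-relations of the Shimura character -/

theorem hh_shimuraChar_eq (p : ℕ) [Fact p.Prime] : shimuraChar p = shimuraHom p (shimuraPsi p) :=
  rfl

theorem hh_lb_coh_shimuraChar_T (p : ℕ) [Fact p.Prime] {ℓ : ℕ} (hℓ : ℓ.Prime) (hℓp : ¬ ℓ ∣ p) :
    (lbSysT hℓ hℓp).coh _ (shimuraChar p) = (ℓ + 1) • shimuraChar p := by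
  rw [hh_lbSysT_coh, hh_shimuraChar_eq]
  exact heckeHom_shimuraHom_T hℓ hℓp (shimuraPsi p)

theorem hh_lb_coh_shimuraChar_T' (p : ℕ) [Fact p.Prime] {ℓ : ℕ} (hℓ : ℓ.Prime) (hℓp : ¬ ℓ ∣ p) :
    (lbSysT hℓ hℓp).coh _ (shimuraChar p) = ((1 + ℓ : ℕ) : ℤ) • shimuraChar p := by
  rw [hh_lb_coh_shimuraChar_T p hℓ hℓp, Nat.cast_smul_eq_nsmul, add_comm]

theorem hh_lb_coh_shimuraChar_U (p : ℕ) [hp : Fact p.Prime] :
    (lbSysU hp.out (dvd_refl p)).coh _ (shimuraChar p) = shimuraChar p := by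
  rw [hh_lbSysU_coh, hh_shimuraChar_eq, heckeHom_shimuraHom_U hp.out (dvd_refl p)]
  refine AddMonoidHom.ext fun γ => ?_
  rw [AddMonoidHom.smul_apply, nsmul_eq_mul]
  have h1 : ((p : ℕ) : ZMod (eisensteinNumerator p)) = 1 := by
    have h2 : (((p - 1 : ℕ) : ℕ) : ZMod (eisensteinNumerator p)) = 0 :=
      (ZMod.natCast_eq_zero_iff _ _).mpr (eisensteinNumerator_dvd p)
    rw [Nat.cast_pred hp.out.pos] at h2
    exact sub_eq_zero.mp h2
  rw [h1, one_mul]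

end Fermat.Agent.S16
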