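/-
S16 / LOWER BOUND (cohomological route), module L-C4b (helper30): the Shimura character is an
Eisenstein eigenclass for the transfer operators.

Generic statement: for a coset system `S : LbSys (Gamma0 p)` all of whose matrices have lower left
entry divisible by `p` and upper left entry a unit mod `p`,
`S.coh _ (shimuraChar p) = (#S.ι) • shimuraChar p`
(the upper left entry mod `p` is multiplicative on such matrices; the contributions of the
representatives cancel because `perm γ` is a permutation).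
-/
import Mathlib
import Fermat.Agent.S16.LB.Defs
import Fermat.Agent.S16.LB.Coset
import Fermat.Agent.S16.ShimuraChar

set_option autoImplicit false

open ModularCurve CongruenceSubgroup
open scoped MatrixGroups

namespace Fermat.Agent.S16

/-- If `α γ = κ α'` with `γ, κ ∈ Γ₀(p)` and `p ∣ α' 1 0`, the upper left entries multiply
mod `p`. -/
theorem lbe_entry (p : ℕ) (α α' : Matrix (Fin 2) (Fin 2) ℤ) (γ κ : Gamma0 p)
    (h10 : (p : ℤ) ∣ α' 1 0)
    (h : α * ((γ : SL(2, ℤ)) : Matrix (Fin 2) (Fin 2) ℤ)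
      = ((κ : SL(2, ℤ)) : Matrix (Fin 2) (Fin 2) ℤ) * α') :
    ((α 0 0 : ℤ) : ZMod p) * (((γ : SL(2, ℤ)) 0 0 : ℤ) : ZMod p)
      = (((κ : SL(2, ℤ)) 0 0 : ℤ) : ZMod p) * ((α' 0 0 : ℤ) : ZMod p) := by
  have h00 := congrFun (congrFun h 0) 0
  rw [Matrix.mul_apply, Matrix.mul_apply, Fin.sum_univ_two, Fin.sum_univ_two] at h00
  have hγ : ((((γ : SL(2, ℤ)) 1 0 : ℤ)) : ZMod p) = 0 := Gamma0_mem.mp γ.2
  have hα : ((α' 1 0 : ℤ) : ZMod p) = 0 := (ZMod.intCast_zmod_eq_zero_iff_dvd _ p).mpr h10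
  have h' := congrArg (Int.cast : ℤ → ZMod p) h00
  push_cast at h'
  rw [hγ, hα, mul_zero, mul_zero, add_zero, add_zero] at h'
  exact h'

/-- **Eisenstein property of the Shimura character**, generic form. -/
theorem lb_coh_shimuraChar (p : ℕ) [Fact p.Prime] (S : LbSys (Gamma0 p))
    (h10 : ∀ i, (p : ℤ) ∣ S.mat i 1 0) (h00 : ∀ i, IsUnit ((S.mat i 0 0 : ℤ) : ZMod p)) :
    S.coh _ (shimuraChar p) = Fintype.card S.ι • shimuraChar p := by
  refine AddMonoidHom.ext fun γ => ?_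
  obtain ⟨γ, rfl⟩ := Additive.ofMul.surjective γ
  rw [LbSys.coh_apply, AddMonoidHom.nsmul_apply]
  let u : S.ι → (ZMod p)ˣ := fun i => (h00 i).unit
  have hu : ∀ i, ((u i : (ZMod p)ˣ) : ZMod p) = ((S.mat i 0 0 : ℤ) : ZMod p) :=
    fun i => (h00 i).unit_spec
  have key : ∀ i, gamma0Unit p (S.kap γ i) * u i = gamma0Unit p γ * u (S.perm γ i) := by
    intro i
    apply Units.ext
    rw [Units.val_mul, Units.val_mul, gamma0Unit_coe, gamma0Unit_coe, hu, hu]
    have e := lbe_entry p (S.mat i) (S.mat (S.perm γ i)) γ (S.kap γ i) (h10 _) (S.mat_mul γ i)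
    have hγ := ch_gamma0_diag_mul p γ
    have hκ := ch_gamma0_diag_mul p (S.kap γ i)
    linear_combination
      ((((γ : SL(2, ℤ)) 1 1 : ℤ) : ZMod p) * ((((S.kap γ i : Gamma0 p) : SL(2, ℤ)) 1 1 : ℤ) : ZMod p)) * e
      - ((((S.kap γ i : Gamma0 p) : SL(2, ℤ)) 1 1 : ℤ) : ZMod p) * ((S.mat i 0 0 : ℤ) : ZMod p) * hγ
      + (((γ : SL(2, ℤ)) 1 1 : ℤ) : ZMod p) * ((S.mat (S.perm γ i) 0 0 : ℤ) : ZMod p) * hκ
  have key2 : ∀ i, shimuraChar p (Additive.ofMul (S.kap γ i))
      + Multiplicative.toAdd (shimuraPsi p (u i))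
      = shimuraChar p (Additive.ofMul γ)
        + Multiplicative.toAdd (shimuraPsi p (u (S.perm γ i))) := by
    intro i
    rw [shimuraChar_apply, shimuraChar_apply, ← toAdd_mul, ← toAdd_mul, ← map_mul, ← map_mul, key]
  have hsum := Finset.sum_congr (s₁ := (Finset.univ : Finset S.ι)) rfl (fun i _ => key2 i)
  rw [Finset.sum_add_distrib, Finset.sum_add_distrib, Finset.sum_const, Finset.card_univ] at hsum
  have hperm : ∑ i, Multiplicative.toAdd (shimuraPsi p (u (S.perm γ i)))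
      = ∑ i, Multiplicative.toAdd (shimuraPsi p (u i)) :=
    Equiv.sum_comp (S.permEquiv γ) (fun i => Multiplicative.toAdd (shimuraPsi p (u i)))
  rw [hperm] at hsum
  exact add_right_cancel hsum

theorem lbe_lbMat_one_zero (ℓ : ℕ) (i : Option (Fin ℓ)) : lbMat ℓ i 1 0 = 0 := by
  cases i <;> rfl

/-- `T_ℓ χ = (1 + ℓ) χ` for `ℓ ≠ p`. -/
theorem lb_shimuraChar_T (p : ℕ) [hp : Fact p.Prime] {ℓ : ℕ} (hℓ : ℓ.Prime) (hℓp : ¬ ℓ ∣ p) :
    (lbSysT hℓ hℓp).coh _ (shimuraChar p) = (ℓ + 1) • shimuraChar p := by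
  have hcard : Fintype.card (lbSysT (N := p) hℓ hℓp).ι = ℓ + 1 := by
    show Fintype.card (Option (Fin ℓ)) = ℓ + 1
    rw [Fintype.card_option, Fintype.card_fin]
  rw [← hcard]
  refine lb_coh_shimuraChar p _ (fun i => ?_) (fun i => ?_)
  · show (p : ℤ) ∣ lbMat ℓ i 1 0
    exact (lbe_lbMat_one_zero ℓ i).symm ▸ dvd_zero (p : ℤ)
  · show IsUnit ((lbMat ℓ i 0 0 : ℤ) : ZMod p)
    cases i with
    | none =>
      show IsUnit (((ℓ : ℤ)) : ZMod p)
      rw [Int.cast_natCast, ZMod.isUnit_iff_coprime]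
      exact (Nat.coprime_primes hℓ hp.out).mpr (fun h => hℓp (h ▸ dvd_refl _))
    | some j =>
      show IsUnit (((1 : ℤ)) : ZMod p)
      rw [Int.cast_one]
      exact isUnit_one

/-- `U_p χ = χ`. -/
theorem lb_shimuraChar_U (p : ℕ) [hp : Fact p.Prime] :
    (lbSysU hp.out (dvd_refl p)).coh _ (shimuraChar p) = shimuraChar p := by
  have hcard : Fintype.card (lbSysU (N := p) hp.out (dvd_refl p)).ι = p := by
    show Fintype.card (Fin p) = p
    rw [Fintype.card_fin]
  have h1 : (lbSysU hp.out (dvd_refl p)).coh _ (shimuraChar p) = p • shimuraChar p := by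
    have h0 := lb_coh_shimuraChar p (lbSysU hp.out (dvd_refl p)) (fun i => by
        show (p : ℤ) ∣ lbMat p (some i) 1 0
        exact (lbe_lbMat_one_zero p (some i)).symm ▸ dvd_zero (p : ℤ)) (fun i => by
        show IsUnit (((1 : ℤ)) : ZMod p)
        rw [Int.cast_one]
        exact isUnit_one)
    rw [hcard] at h0
    exact h0
  rw [h1]
  refine AddMonoidHom.ext fun γ => ?_
  rw [AddMonoidHom.nsmul_apply, nsmul_eq_mul]
  have hp1 : ((p : ℕ) : ZMod (eisensteinNumerator p)) = 1 := by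
    have h2 : (((p - 1 : ℕ)) : ZMod (eisensteinNumerator p)) = 0 :=
      (ZMod.natCast_eq_zero_iff _ _).mpr (eisensteinNumerator_dvd p)
    have h3 : p = (p - 1) + 1 := by have := hp.out.one_lt; omega
    have h4 : ((p : ℕ) : ZMod (eisensteinNumerator p))
        = (((p - 1 : ℕ)) : ZMod (eisensteinNumerator p)) + 1 := by
      exact_mod_cast congrArg (Nat.cast : ℕ → ZMod (eisensteinNumerator p)) h3
    rw [h4, h2, zero_add]
  rw [hp1, one_mul]

end Fermat.Agent.S16
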