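/-
S16 / LOWER BOUND (cohomological route): the transfer operators of `lbSysT` / `lbSysU` commute
with the involution `ψ ↦ ψ ∘ jConj` (helper7).  Skel names for the statements proved by helper2 in
LB/BridgeHH (`hh_lb_coh_jConj_T/_U`), plus the `charInvolution` and `heckeHom`-direction forms.
-/
import Fermat.Agent.S16.LB.BridgeHH

set_option autoImplicit false

open CongruenceSubgroup ModularCurve.Period
open scoped MatrixGroups

namespace Fermat.Agent.S16

theorem lb_heckeHom_T {N ℓ : ℕ} (hℓ : ℓ.Prime) (hℓN : ¬ ℓ ∣ N) (A : Type*) [AddCommGroup A] :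
    heckeHom N ℓ A = (lbSysT hℓ hℓN).coh A :=
  (hh_lbSysT_coh hℓ hℓN A).symm

theorem lb_heckeHom_U {N p : ℕ} (hp : p.Prime) (hpN : p ∣ N) (A : Type*) [AddCommGroup A] :
    heckeHom N p A = (lbSysU hp hpN).coh A :=
  (hh_lbSysU_coh hp hpN A).symm

theorem lb_coh_jConj_T {N ℓ : ℕ} (hℓ : ℓ.Prime) (hℓN : ¬ ℓ ∣ N) {A : Type*} [AddCommGroup A]
    (ψ : Additive (Gamma0 N) →+ A) :
    (lbSysT hℓ hℓN).coh A (ψ.comp (MonoidHom.toAdditive (jConjGamma0 N)))
      = ((lbSysT hℓ hℓN).coh A ψ).comp (MonoidHom.toAdditive (jConjGamma0 N)) :=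
  hh_lb_coh_jConj_T hℓ hℓN ψ

theorem lb_coh_jConj_U {N p : ℕ} (hp : p.Prime) (hpN : p ∣ N) {A : Type*} [AddCommGroup A]
    (ψ : Additive (Gamma0 N) →+ A) :
    (lbSysU hp hpN).coh A (ψ.comp (MonoidHom.toAdditive (jConjGamma0 N)))
      = ((lbSysU hp hpN).coh A ψ).comp (MonoidHom.toAdditive (jConjGamma0 N)) :=
  hh_lb_coh_jConj_U hp hpN ψ

/-- the same for the Prelude involution `charInvolution`. -/
theorem lb_coh_charInvolution_T {N ℓ : ℕ} (hℓ : ℓ.Prime) (hℓN : ¬ ℓ ∣ N) (R : Type*) [Semiring R]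
    {A : Type*} [AddCommGroup A] [Module R A] (ψ : Additive (Gamma0 N) →+ A) :
    (lbSysT hℓ hℓN).coh A (charInvolution N R A ψ)
      = charInvolution N R A ((lbSysT hℓ hℓN).coh A ψ) :=
  hh_lb_coh_jConj_T hℓ hℓN ψ

theorem lb_coh_charInvolution_U {N p : ℕ} (hp : p.Prime) (hpN : p ∣ N) (R : Type*) [Semiring R]
    {A : Type*} [AddCommGroup A] [Module R A] (ψ : Additive (Gamma0 N) →+ A) :
    (lbSysU hp hpN).coh A (charInvolution N R A ψ)
      = charInvolution N R A ((lbSysU hp hpN).coh A ψ) :=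
  hh_lb_coh_jConj_U hp hpN ψ

end Fermat.Agent.S16
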