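/-
S16 / LOWER BOUND (cohomological route), module L-C5 (helper30): assembly.

`lb_main_of`: from
* (`hper`) Hecke-equivariance of the period map for the coset systems `Sys ℓ`,
* (`hinv`) commutation of the transfer operators with the involution `γ ↦ J γ J`,
* (`heig`) the Eisenstein property of the Shimura character,
* (`hlift`) an integral parabolic lift of the Shimura character,
every `P ∈ HeckeAlg` killing `S₂(Γ₀(p))` satisfies `n ∣ eis P`, `n = eisensteinNumerator p`.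
No commutativity of the operators on `Hom(Γ₀(p), A)` is used: the statement "`P` acts compatibly
on `Hom(Γ, ℂ)`, `Hom(Γ, ℤ)`, `Hom(Γ, ZMod n)`" (`LbCompat`) is proved by induction on `P`.
-/
import Mathlib
import Fermat.Agent.S16.Top
import Fermat.Agent.S16.LB.Defs
import Fermat.Agent.S16.LB.Coset
import Fermat.Agent.S16.LB.Eigen
import Fermat.Agent.S16.ShimuraChar
import Fermat.Agent.S21
import Fermat.Agent.S23

set_option autoImplicit false

open CongruenceSubgroup ModularCurve ModularCurve.Period CuspForm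
open scoped MatrixGroups

namespace Fermat.Agent.S16

/-- The involution `γ ↦ J γ J` on `Additive Γ₀(p)`. -/
noncomputable abbrev lbm_J (p : ℕ) : Additive (Gamma0 p) →+ Additive (Gamma0 p) :=
  MonoidHom.toAdditive (jConjGamma0 p)

theorem lbm_periodHomPair_eq (p : ℕ) [NeZero p] (f g : CuspForm (Gamma0 p) 2) :
    periodHomPair p (f, g) = periodMap p f + (periodMap p f).comp (lbm_J p)
      + (periodMap p g - (periodMap p g).comp (lbm_J p)) := by
  refine AddMonoidHom.ext fun γ => ?_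
  obtain ⟨γ, rfl⟩ := Additive.ofMul.surjective γ
  rw [Fermat.Agent.S21.periodHomPair_apply]
  rfl

/-- Equivariance of `periodHomPair` for one coset system. -/
theorem lbm_coh_periodHomPair (p : ℕ) [NeZero p] (S : LbSys (Gamma0 p))
    (T : Module.End ℂ (CuspForm (Gamma0 p) 2))
    (hper : ∀ f : CuspForm (Gamma0 p) 2, periodMap p (T f) = S.coh ℂ (periodMap p f))
    (hinv : ∀ ψ : Additive (Gamma0 p) →+ ℂ,
      S.coh ℂ (ψ.comp (lbm_J p)) = (S.coh ℂ ψ).comp (lbm_J p))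
    (f g : CuspForm (Gamma0 p) 2) :
    S.coh ℂ (periodHomPair p (f, g)) = periodHomPair p (T f, T g) := by
  rw [lbm_periodHomPair_eq, lbm_periodHomPair_eq, map_add, map_add, map_sub, hinv, hinv, hper,
    hper]

/-- `P` acts compatibly on `Hom(Γ₀(p), ℂ)`, `Hom(Γ₀(p), ℤ)`, `Hom(Γ₀(p), ZMod n)`. -/
def LbCompat (p : ℕ) [Fact p.Prime] (P : HeckeAlg) : Prop :=
  ∃ (θC : (Additive (Gamma0 p) →+ ℂ) →+ (Additive (Gamma0 p) →+ ℂ))
    (θZ : (Additive (Gamma0 p) →+ ℤ) →+ (Additive (Gamma0 p) →+ ℤ))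
    (θn : (Additive (Gamma0 p) →+ ZMod (eisensteinNumerator p)) →+
      (Additive (Gamma0 p) →+ ZMod (eisensteinNumerator p))),
    (∀ ψ : Additive (Gamma0 p) →+ ℤ,
      θC ((Int.castAddHom ℂ).comp ψ) = (Int.castAddHom ℂ).comp (θZ ψ)) ∧
    (∀ ψ : Additive (Gamma0 p) →+ ℤ,
      θn ((Int.castAddHom (ZMod (eisensteinNumerator p))).comp ψ)
        = (Int.castAddHom (ZMod (eisensteinNumerator p))).comp (θZ ψ)) ∧
    (∀ f g : CuspForm (Gamma0 p) 2, θC (periodHomPair p (f, g)) =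
      periodHomPair p
        (((heckeEvalForms p 2 P : heckeAlgebra p 2 ∅) :
            Module.End ℂ (CuspForm (Gamma0 p) 2)) f,
          ((heckeEvalForms p 2 P : heckeAlgebra p 2 ∅) :
            Module.End ℂ (CuspForm (Gamma0 p) 2)) g)) ∧
    θn (shimuraChar p) = (h36_eis p P) • shimuraChar p

theorem lbm_comp_zsmul {A B : Type*} [AddCommGroup A] [AddCommGroup B] {G : Type*}
    [AddZeroClass G] (h : A →+ B) (a : ℤ) (ψ : G →+ A) : h.comp (a • ψ) = a • h.comp ψ := by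
  refine AddMonoidHom.ext fun γ => ?_
  simp

theorem lbm_compat_C (p : ℕ) [Fact p.Prime] (a : ℤ) : LbCompat p (MvPolynomial.C a) := by
  refine ⟨a • AddMonoidHom.id _, a • AddMonoidHom.id _, a • AddMonoidHom.id _, ?_, ?_, ?_, ?_⟩
  · intro ψ
    simp only [AddMonoidHom.smul_apply, AddMonoidHom.id_apply]
    exact (lbm_comp_zsmul _ a ψ).symm
  · intro ψ
    simp only [AddMonoidHom.smul_apply, AddMonoidHom.id_apply]
    exact (lbm_comp_zsmul _ a ψ).symm
  · intro f g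
    simp only [AddMonoidHom.smul_apply, AddMonoidHom.id_apply]
    rw [heckeEvalForms_C, Subalgebra.coe_algebraMap, Module.algebraMap_end_apply,
      Module.algebraMap_end_apply, ← Prod.smul_mk, map_zsmul]
  · simp only [AddMonoidHom.smul_apply, AddMonoidHom.id_apply]
    rw [h36_eis_C]

theorem lbm_compat_add (p : ℕ) [Fact p.Prime] {P Q : HeckeAlg} (hP : LbCompat p P)
    (hQ : LbCompat p Q) : LbCompat p (P + Q) := by
  obtain ⟨θC, θZ, θn, h1, h2, h3, h4⟩ := hP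
  obtain ⟨θC', θZ', θn', h1', h2', h3', h4'⟩ := hQ
  refine ⟨θC + θC', θZ + θZ', θn + θn', ?_, ?_, ?_, ?_⟩
  · intro ψ
    rw [AddMonoidHom.add_apply, AddMonoidHom.add_apply, h1, h1', AddMonoidHom.comp_add]
  · intro ψ
    rw [AddMonoidHom.add_apply, AddMonoidHom.add_apply, h2, h2', AddMonoidHom.comp_add]
  · intro f g
    rw [AddMonoidHom.add_apply, h3, h3', map_add, Subalgebra.coe_add, LinearMap.add_apply,
      LinearMap.add_apply, ← Prod.mk_add_mk, map_add]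
  · rw [AddMonoidHom.add_apply, h4, h4', map_add, add_smul]

theorem lbm_compat_mul_X (p : ℕ) [Fact p.Prime] {P : HeckeAlg} (hP : LbCompat p P)
    (ℓ : Nat.Primes) (S : LbSys (Gamma0 p))
    (hper : ∀ f : CuspForm (Gamma0 p) 2,
      periodMap p (((heckeFormsGen p 2 ℓ : heckeAlgebra p 2 ∅) :
        Module.End ℂ (CuspForm (Gamma0 p) 2)) f) = S.coh ℂ (periodMap p f))
    (hinv : ∀ ψ : Additive (Gamma0 p) →+ ℂ,
      S.coh ℂ (ψ.comp (lbm_J p)) = (S.coh ℂ ψ).comp (lbm_J p))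
    (heig : S.coh _ (shimuraChar p) = (eisensteinSystem p ℓ) • shimuraChar p) :
    LbCompat p (P * MvPolynomial.X ℓ) := by
  obtain ⟨θC, θZ, θn, h1, h2, h3, h4⟩ := hP
  refine ⟨θC.comp (S.coh ℂ), θZ.comp (S.coh ℤ), θn.comp (S.coh _), ?_, ?_, ?_, ?_⟩
  · intro ψ
    rw [AddMonoidHom.comp_apply, AddMonoidHom.comp_apply, LbSys.coh_comp, h1]
  · intro ψ
    rw [AddMonoidHom.comp_apply, AddMonoidHom.comp_apply, LbSys.coh_comp, h2]
  · intro f g
    rw [AddMonoidHom.comp_apply, lbm_coh_periodHomPair p S _ hper hinv, h3, map_mul,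
      Subalgebra.coe_mul, Module.End.mul_apply, Module.End.mul_apply]
    have hX : heckeEvalForms p 2 (MvPolynomial.X ℓ) = heckeFormsGen p 2 ℓ :=
      heckeEvalForms_heckeGen p 2 ℓ
    rw [hX]
  · have hX : h36_eis p (MvPolynomial.X ℓ) = eisensteinSystem p ℓ := by
      rw [h36_eis_apply, MvPolynomial.aeval_X]
    rw [AddMonoidHom.comp_apply, heig, map_zsmul, h4, map_mul, hX, smul_smul, mul_comm]

theorem lbm_compat (p : ℕ) [Fact p.Prime] (Sys : Nat.Primes → LbSys (Gamma0 p))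
    (hper : ∀ (ℓ : Nat.Primes) (f : CuspForm (Gamma0 p) 2),
      periodMap p (((heckeFormsGen p 2 ℓ : heckeAlgebra p 2 ∅) :
        Module.End ℂ (CuspForm (Gamma0 p) 2)) f) = (Sys ℓ).coh ℂ (periodMap p f))
    (hinv : ∀ (ℓ : Nat.Primes) (ψ : Additive (Gamma0 p) →+ ℂ),
      (Sys ℓ).coh ℂ (ψ.comp (lbm_J p)) = ((Sys ℓ).coh ℂ ψ).comp (lbm_J p))
    (heig : ∀ ℓ : Nat.Primes,
      (Sys ℓ).coh _ (shimuraChar p) = (eisensteinSystem p ℓ) • shimuraChar p)
    (P : HeckeAlg) : LbCompat p P := by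
  induction P using MvPolynomial.induction_on with
  | C a => exact lbm_compat_C p a
  | add P Q hP hQ => exact lbm_compat_add p hP hQ
  | mul_X P ℓ hP => exact lbm_compat_mul_X p hP ℓ (Sys ℓ) (hper ℓ) (hinv ℓ) (heig ℓ)

/-- **Abstract assembly of the cohomological lower bound.** -/
theorem lb_main_of (p : ℕ) [Fact p.Prime] (Sys : Nat.Primes → LbSys (Gamma0 p))
    (hper : ∀ (ℓ : Nat.Primes) (f : CuspForm (Gamma0 p) 2),
      periodMap p (((heckeFormsGen p 2 ℓ : heckeAlgebra p 2 ∅) :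
        Module.End ℂ (CuspForm (Gamma0 p) 2)) f) = (Sys ℓ).coh ℂ (periodMap p f))
    (hinv : ∀ (ℓ : Nat.Primes) (ψ : Additive (Gamma0 p) →+ ℂ),
      (Sys ℓ).coh ℂ (ψ.comp (lbm_J p)) = ((Sys ℓ).coh ℂ ψ).comp (lbm_J p))
    (heig : ∀ ℓ : Nat.Primes,
      (Sys ℓ).coh _ (shimuraChar p) = (eisensteinSystem p ℓ) • shimuraChar p)
    (hlift : ∃ φ : Additive (Gamma0 p) →+ ℤ,
      (Int.castAddHom ℂ).comp φ ∈ parabolicHoms ℂ (Gamma0 p) ℂ ∧
      (Int.castAddHom (ZMod (eisensteinNumerator p))).comp φ = shimuraChar p)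
    (P : HeckeAlg) (hP : h36_pi p P = 0) :
    (eisensteinNumerator p : ℤ) ∣ h36_eis p P := by
  have hE : heckeEvalForms p 2 P = 0 :=
    (h36_pi_eq_zero_iff_of_hint p (Fermat.Agent.S23.result p) P).mp hP
  obtain ⟨θC, θZ, θn, h1, h2, h3, h4⟩ := lbm_compat p Sys hper hinv heig P
  obtain ⟨φ, hφpar, hφn⟩ := hlift
  -- the complexified lift is in the range of `periodHomPair`
  have hrange : (Int.castAddHom ℂ).comp φ ∈ LinearMap.range (periodHomPair p) := by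
    rw [(Fermat.Agent.S21.result p).2]
    exact hφpar
  obtain ⟨⟨f, g⟩, hfg⟩ := hrange
  -- `θC` kills it
  have h5 : θC ((Int.castAddHom ℂ).comp φ) = 0 := by
    rw [← hfg, h3, hE]
    simp only [ZeroMemClass.coe_zero, LinearMap.zero_apply]
    exact (periodHomPair p).map_zero
  -- hence `θZ φ = 0`
  have h6 : θZ φ = 0 := by
    rw [h1] at h5
    refine AddMonoidHom.ext fun γ => ?_
    have h7 := DFunLike.congr_fun h5 γ
    simpa using h7
  -- hence `eis P • χ = 0`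
  have h8 : (h36_eis p P) • shimuraChar p = 0 := by
    rw [← h4, ← hφn, h2, h6]
    simp
  obtain ⟨γ, hγ⟩ := shimuraChar_surjective p 1
  have h9 := DFunLike.congr_fun h8 γ
  rw [AddMonoidHom.smul_apply, hγ, AddMonoidHom.zero_apply, zsmul_eq_mul, mul_one] at h9
  exact (ZMod.intCast_zmod_eq_zero_iff_dvd _ _).mp h9

/-- The coset system attached to a prime `ℓ` at level `p`: `U_ℓ` if `ℓ ∣ p`, else `T_ℓ`. -/
noncomputable def lbSysAll (p : ℕ) (ℓ : Nat.Primes) : LbSys (Gamma0 p) :=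
  if h : (ℓ : ℕ) ∣ p then lbSysU ℓ.2 h else lbSysT ℓ.2 h

theorem lbSysAll_of_dvd {p : ℕ} {ℓ : Nat.Primes} (h : (ℓ : ℕ) ∣ p) :
    lbSysAll p ℓ = lbSysU ℓ.2 h := dif_pos h

theorem lbSysAll_of_not_dvd {p : ℕ} {ℓ : Nat.Primes} (h : ¬ (ℓ : ℕ) ∣ p) :
    lbSysAll p ℓ = lbSysT ℓ.2 h := dif_neg h

/-- The Eisenstein property for all the systems `lbSysAll p ℓ`. -/
theorem lbm_eig (p : ℕ) [hp : Fact p.Prime] (ℓ : Nat.Primes) :
    (lbSysAll p ℓ).coh _ (shimuraChar p) = (eisensteinSystem p ℓ) • shimuraChar p := by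
  by_cases h : (ℓ : ℕ) ∣ p
  · rw [lbSysAll_of_dvd h, eisensteinSystem_of_dvd h, one_smul]
    obtain ⟨ℓ, hℓ⟩ := ℓ
    have hℓp : ℓ = p := (Nat.prime_dvd_prime_iff_eq hℓ hp.out).mp h
    subst hℓp
    exact lb_shimuraChar_U ℓ
  · rw [lbSysAll_of_not_dvd h, eisensteinSystem_of_not_dvd h, lb_shimuraChar_T p ℓ.2 h]
    rw [show (1 + ((ℓ : ℕ) : ℤ)) = (((ℓ : ℕ) + 1 : ℕ) : ℤ) by push_cast; ring, natCast_zsmul]

/-- **Cohomological lower bound**, from the period equivariance (`hperT`, `hperU`), the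
commutation with the involution (`hinvT`, `hinvU`) and the integral lift (`hlift`). -/
theorem lb_main_of_parts (p : ℕ) [Fact p.Prime]
    (hperT : ∀ {ℓ : ℕ} (hℓ : ℓ.Prime) (hℓN : ¬ ℓ ∣ p) (f : CuspForm (Gamma0 p) 2),
      periodMap p (CuspForm.heckeTLin 2 hℓ hℓN f) = (lbSysT hℓ hℓN).coh ℂ (periodMap p f))
    (hperU : ∀ {q : ℕ} (hq : q.Prime) (hqN : q ∣ p) (f : CuspForm (Gamma0 p) 2),
      periodMap p (CuspForm.heckeULin 2 hqN f) = (lbSysU hq hqN).coh ℂ (periodMap p f))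
    (hinvT : ∀ {ℓ : ℕ} (hℓ : ℓ.Prime) (hℓN : ¬ ℓ ∣ p) (ψ : Additive (Gamma0 p) →+ ℂ),
      (lbSysT hℓ hℓN).coh ℂ (ψ.comp (MonoidHom.toAdditive (jConjGamma0 p)))
        = ((lbSysT hℓ hℓN).coh ℂ ψ).comp (MonoidHom.toAdditive (jConjGamma0 p)))
    (hinvU : ∀ {q : ℕ} (hq : q.Prime) (hqN : q ∣ p) (ψ : Additive (Gamma0 p) →+ ℂ),
      (lbSysU hq hqN).coh ℂ (ψ.comp (MonoidHom.toAdditive (jConjGamma0 p)))
        = ((lbSysU hq hqN).coh ℂ ψ).comp (MonoidHom.toAdditive (jConjGamma0 p)))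
    (hlift : ∃ φ : Additive (Gamma0 p) →+ ℤ,
      (Int.castAddHom ℂ).comp φ ∈ parabolicHoms ℂ (Gamma0 p) ℂ ∧
      (Int.castAddHom (ZMod (eisensteinNumerator p))).comp φ = shimuraChar p)
    (P : HeckeAlg) (hP : h36_pi p P = 0) :
    (eisensteinNumerator p : ℤ) ∣ h36_eis p P := by
  refine lb_main_of p (lbSysAll p) (fun ℓ f => ?_) (fun ℓ ψ => ?_) (lbm_eig p) hlift P hP
  · by_cases h : (ℓ : ℕ) ∣ p
    · rw [lbSysAll_of_dvd h, heckeFormsGen_of_dvd h, heckeAlgebra.coe_U]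
      exact hperU ℓ.2 h f
    · rw [lbSysAll_of_not_dvd h, heckeFormsGen_of_not_dvd h, heckeAlgebra.coe_T]
      exact hperT ℓ.2 h f
  · by_cases h : (ℓ : ℕ) ∣ p
    · rw [lbSysAll_of_dvd h]
      exact hinvU ℓ.2 h ψ
    · rw [lbSysAll_of_not_dvd h]
      exact hinvT ℓ.2 h ψ

end Fermat.Agent.S16
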