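/-
S16 / lower bound, L-coh (helper2).  Assembly of the cohomological lower bound
`n ∣ eis P` for every Hecke polynomial `P` killing `S₂(Γ₀(p))` (twin of `LB/Main`), on the
`heckeHom` side: period-map equivariance + involution commutation + Eisenstein eigen-relations
of the Shimura character + its integral parabolic lift + S21 (Eichler–Shimura) + S23.
-/
import Mathlib
import Fermat.Agent.S21
import Fermat.Agent.S23
import Fermat.Agent.S16.Top
import Fermat.Agent.S16.HeckePeriod
import Fermat.Agent.S16.LB.BridgeHH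
import Fermat.Agent.S16.ShimuraLift
import Fermat.Agent.S16.ShimuraCharAux

set_option autoImplicit false

open CongruenceSubgroup ModularCurve ModularCurve.Period CuspForm
open scoped MatrixGroups

namespace Fermat.Agent.S16

open Fermat.Agent.S21 in
theorem hh_periodHomPair_eq {N : ℕ} [NeZero N] (f g : CuspForm (Gamma0 N) 2) :
    periodHomPair N (f, g) =
      (periodMap N f + charInvolution N ℂ ℂ (periodMap N f)) +
        (periodMap N g - charInvolution N ℂ ℂ (periodMap N g)) := by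
  obtain ⟨pml, hpml, hdef⟩ := periodHomPair_def N (existsPeriodMapLinear N)
  rw [hdef]
  simp only [LinearMap.coprod_apply, LinearMap.comp_apply, LinearMap.add_apply,
    LinearMap.sub_apply, LinearMap.id_apply, hpml]

/-- `heckeHom` on the image of `periodHomPair`. -/
theorem hh_heckeHom_periodHomPair (p : ℕ) [Fact p.Prime] (ℓ : Nat.Primes)
    (f g : CuspForm (Gamma0 p) 2) :
    heckeHom p ℓ ℂ (periodHomPair p (f, g)) =
      periodHomPair p
        (((heckeFormsGen p 2 ℓ : heckeAlgebra p 2 ∅) : Module.End ℂ (CuspForm (Gamma0 p) 2)) f,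
         ((heckeFormsGen p 2 ℓ : heckeAlgebra p 2 ∅) : Module.End ℂ (CuspForm (Gamma0 p) 2)) g) := by
  have key : ∀ h : CuspForm (Gamma0 p) 2, heckeHom p ℓ ℂ (periodMap p h) =
      periodMap p
        (((heckeFormsGen p 2 ℓ : heckeAlgebra p 2 ∅) : Module.End ℂ (CuspForm (Gamma0 p) 2)) h) := by
    intro h
    by_cases hd : (ℓ : ℕ) ∣ p
    · rw [heckeFormsGen_of_dvd hd, heckeAlgebra.coe_U]
      exact heckeHom_periodMap_U ℓ.2 hd h
    · rw [heckeFormsGen_of_not_dvd hd, heckeAlgebra.coe_T]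
      exact heckeHom_periodMap_T ℓ.2 hd h
  rw [hh_periodHomPair_eq, hh_periodHomPair_eq, map_add, map_add, map_sub,
    heckeHom_charInvolution, heckeHom_charInvolution, key, key]

/-- The Shimura character is an eigenvector of `heckeHom` with the Eisenstein eigenvalues. -/
theorem hh_heckeHom_shimuraChar (p : ℕ) [hp : Fact p.Prime] (ℓ : Nat.Primes) :
    heckeHom p ℓ _ (shimuraChar p) = (eisensteinSystem p ℓ) • shimuraChar p := by
  by_cases hd : (ℓ : ℕ) ∣ p
  · have hℓp : (ℓ : ℕ) = p := (Nat.prime_dvd_prime_iff_eq ℓ.2 hp.out).mp hd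
    rw [eisensteinSystem_of_dvd hd, one_smul, hℓp, ← hh_lbSysU_coh hp.out (dvd_refl p)]
    exact hh_lb_coh_shimuraChar_U p
  · rw [eisensteinSystem_of_not_dvd hd, hh_shimuraChar_eq, heckeHom_shimuraHom_T ℓ.2 hd]
    rw [← Nat.cast_smul_eq_nsmul ℤ]
    congr 1
    push_cast
    ring

/-- Transport of a Hecke polynomial through the three coefficient groups `ℤ`, `ℂ`, `ZMod n`. -/
theorem hh_eval (p : ℕ) [Fact p.Prime] (P : HeckeAlg) :
    ∀ (f g : CuspForm (Gamma0 p) 2) (ψ : Additive (Gamma0 p) →+ ℤ) (c : ℤ),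
      (Int.castAddHom ℂ).comp ψ = periodHomPair p (f, g) →
      (Int.castAddHom (ZMod (eisensteinNumerator p))).comp ψ = c • shimuraChar p →
      ∃ ψ' : Additive (Gamma0 p) →+ ℤ,
        (Int.castAddHom ℂ).comp ψ' = periodHomPair p
          (((heckeEvalForms p 2 P : heckeAlgebra p 2 ∅) :
              Module.End ℂ (CuspForm (Gamma0 p) 2)) f,
           ((heckeEvalForms p 2 P : heckeAlgebra p 2 ∅) :
              Module.End ℂ (CuspForm (Gamma0 p) 2)) g) ∧
        (Int.castAddHom (ZMod (eisensteinNumerator p))).comp ψ' =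
          (h36_eis p P * c) • shimuraChar p := by
  induction P using MvPolynomial.induction_on with
  | C a =>
    intro f g ψ c h1 h2
    refine ⟨a • ψ, ?_, ?_⟩
    · rw [heckeEvalForms_C]
      have e : ∀ h : CuspForm (Gamma0 p) 2,
          ((algebraMap ℤ (heckeAlgebra p 2 ∅) a : heckeAlgebra p 2 ∅) :
            Module.End ℂ (CuspForm (Gamma0 p) 2)) h = a • h := by
        intro h
        rw [Algebra.algebraMap_eq_smul_one]
        rfl
      rw [e, e, ← Prod.smul_mk, map_zsmul, ← h1]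
      refine AddMonoidHom.ext fun γ => ?_
      simp
    · rw [h36_eis_C, mul_smul, ← h2]
      refine AddMonoidHom.ext fun γ => ?_
      simp
  | add P Q hP hQ =>
    intro f g ψ c h1 h2
    obtain ⟨ψ₁, a1, a2⟩ := hP f g ψ c h1 h2
    obtain ⟨ψ₂, b1, b2⟩ := hQ f g ψ c h1 h2
    refine ⟨ψ₁ + ψ₂, ?_, ?_⟩
    · have e1 : (Int.castAddHom ℂ).comp (ψ₁ + ψ₂) =
          (Int.castAddHom ℂ).comp ψ₁ + (Int.castAddHom ℂ).comp ψ₂ :=
        AddMonoidHom.comp_add _ _ _
      rw [e1, a1, b1, ← map_add, Prod.mk_add_mk, map_add]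
      rfl
    · have e1 : (Int.castAddHom (ZMod (eisensteinNumerator p))).comp (ψ₁ + ψ₂) =
          (Int.castAddHom (ZMod (eisensteinNumerator p))).comp ψ₁ +
            (Int.castAddHom (ZMod (eisensteinNumerator p))).comp ψ₂ :=
        AddMonoidHom.comp_add _ _ _
      rw [e1, a2, b2, map_add, add_mul, add_smul]
  | mul_X P ℓ hP =>
    intro f g ψ c h1 h2
    have c1 : (Int.castAddHom ℂ).comp (heckeHom p ℓ ℤ ψ) = periodHomPair p
        (((heckeFormsGen p 2 ℓ : heckeAlgebra p 2 ∅) : Module.End ℂ (CuspForm (Gamma0 p) 2)) f,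
         ((heckeFormsGen p 2 ℓ : heckeAlgebra p 2 ∅) : Module.End ℂ (CuspForm (Gamma0 p) 2)) g) := by
      rw [← heckeHom_comp, h1, hh_heckeHom_periodHomPair]
    have c2 : (Int.castAddHom (ZMod (eisensteinNumerator p))).comp (heckeHom p ℓ ℤ ψ) =
        (eisensteinSystem p ℓ * c) • shimuraChar p := by
      rw [← heckeHom_comp, h2, map_zsmul, hh_heckeHom_shimuraChar, smul_smul, mul_comm]
    obtain ⟨ψ', a1, a2⟩ := hP _ _ _ _ c1 c2
    refine ⟨ψ', ?_, ?_⟩
    · have e : ∀ h : CuspForm (Gamma0 p) 2,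
          ((heckeEvalForms p 2 (P * MvPolynomial.X ℓ) : heckeAlgebra p 2 ∅) :
            Module.End ℂ (CuspForm (Gamma0 p) 2)) h =
          ((heckeEvalForms p 2 P : heckeAlgebra p 2 ∅) :
            Module.End ℂ (CuspForm (Gamma0 p) 2))
            (((heckeFormsGen p 2 ℓ : heckeAlgebra p 2 ∅) :
              Module.End ℂ (CuspForm (Gamma0 p) 2)) h) := by
        intro h
        have hX : heckeEvalForms p 2 (MvPolynomial.X ℓ) = heckeFormsGen p 2 ℓ :=
          heckeEvalForms_heckeGen p 2 ℓ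
        rw [map_mul, hX]
        rfl
      rw [a1, e, e]
    · have e : h36_eis p (P * MvPolynomial.X ℓ) = h36_eis p P * eisensteinSystem p ℓ := by
        rw [map_mul, h36_eis_apply (P := MvPolynomial.X ℓ), MvPolynomial.aeval_X]
      rw [a2, e, mul_assoc]

/-- The cohomological lower bound: every Hecke polynomial killing `S₂(Γ₀(p))` has Eisenstein
value divisible by `n = (p - 1) / gcd (p - 1, 12)`. -/
theorem hh_lb_main (p : ℕ) [Fact p.Prime] (P : HeckeAlg) (hP : h36_pi p P = 0) :
    (eisensteinNumerator p : ℤ) ∣ h36_eis p P := by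
  obtain ⟨φ, hφpar, hφ⟩ := sl_exists_shimura_lift p
  have hS21 := (Fermat.Agent.S21.result p).2
  rw [← hS21] at hφpar
  obtain ⟨⟨f, g⟩, hfg⟩ := hφpar
  have h0 : heckeEvalForms p 2 P = 0 :=
    (h36_pi_eq_zero_iff_of_hint p (Fermat.Agent.S23.result p) P).mp hP
  have hφ' : (Int.castAddHom (ZMod (eisensteinNumerator p))).comp φ = (1 : ℤ) • shimuraChar p := by
    rw [one_smul, hφ]
  obtain ⟨ψ', a1, a2⟩ := hh_eval p P f g φ 1 hfg.symm hφ'
  rw [h0] at a1
  have hz : ψ' = 0 := by
    refine AddMonoidHom.ext fun γ => ?_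
    have h1 := DFunLike.congr_fun a1 γ
    have h2 : periodHomPair p
        (((0 : heckeAlgebra p 2 ∅) : Module.End ℂ (CuspForm (Gamma0 p) 2)) f,
         ((0 : heckeAlgebra p 2 ∅) : Module.End ℂ (CuspForm (Gamma0 p) 2)) g) = 0 := by
      have : (((0 : heckeAlgebra p 2 ∅) : Module.End ℂ (CuspForm (Gamma0 p) 2)) f,
         ((0 : heckeAlgebra p 2 ∅) : Module.End ℂ (CuspForm (Gamma0 p) 2)) g) =
          ((0 : CuspForm (Gamma0 p) 2), (0 : CuspForm (Gamma0 p) 2)) := rfl
      rw [this]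
      exact map_zero _
    rw [h2] at h1
    have h3 : ((ψ' γ : ℤ) : ℂ) = 0 := h1
    exact_mod_cast h3
  rw [hz, mul_one] at a2
  have h4 : h36_eis p P • shimuraChar p = 0 := by
    rw [← a2]
    exact AddMonoidHom.comp_zero _
  exact shimuraChar_dvd_of_smul_eq_zero p _ h4

end Fermat.Agent.S16
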