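/-
S16 / LOWER BOUND (cohomological route), module C4 (helper33): the period map intertwines a
Hecke operator given by a coset system `S : LbSys (Gamma0 N)` with the transfer operator `S.coh`
on `Hom(Γ₀(N), ℂ)`.

If `g = ∑ i, f ∣[2] α_i` (as functions on `ℍ`), then `∑ i, F ∘ α_i` is a primitive of `g`
(`F` the canonical primitive of `f`), and telescoping over the exchange relation
`α_i γ = κ_i α_{σ i}` gives `periodMap g γ = ∑ i, periodMap f κ_i`.
-/
import Mathlib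
import Fermat.Prelude.Def_ModularCurve_PeriodHomPair
import Fermat.Agent.S16.LB.Defs
import Fermat.Agent.S16.LB.Coset
import Fermat.Agent.S21.Lin
import Fermat.Agent.S22.Prim

set_option autoImplicit false

open UpperHalfPlane CongruenceSubgroup ModularCurve ModularCurve.Period
open scoped MatrixGroups ModularForm

namespace Fermat.Agent.S16

/-- The real matrix of an integer matrix of positive determinant, as an element of
`GL (Fin 2) ℝ`. -/
noncomputable def lbGL (M : Matrix (Fin 2) (Fin 2) ℤ) (h : 0 < M.det) : GL (Fin 2) ℝ :=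
  Matrix.GeneralLinearGroup.mkOfDetNeZero ((Int.castRingHom ℝ).mapMatrix M) (by
    rw [← RingHom.map_det]
    show ((M.det : ℤ) : ℝ) ≠ 0
    exact_mod_cast h.ne')

theorem lbGL_coe (M : Matrix (Fin 2) (Fin 2) ℤ) (h : 0 < M.det) :
    ((lbGL M h : GL (Fin 2) ℝ) : Matrix (Fin 2) (Fin 2) ℝ) = (Int.castRingHom ℝ).mapMatrix M :=
  rfl

theorem lbGL_det (M : Matrix (Fin 2) (Fin 2) ℤ) (h : 0 < M.det) :
    ((lbGL M h).det : ℝ) = ((M.det : ℤ) : ℝ) := by
  rw [Matrix.GeneralLinearGroup.val_det_apply, lbGL_coe, ← RingHom.map_det]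
  rfl

theorem lbGL_det_pos (M : Matrix (Fin 2) (Fin 2) ℤ) (h : 0 < M.det) :
    0 < ((lbGL M h).det : ℝ) := by
  rw [lbGL_det]
  exact_mod_cast h

theorem h33_mapGL_coe (γ : SL(2, ℤ)) :
    ((Matrix.SpecialLinearGroup.mapGL ℝ γ : GL (Fin 2) ℝ) : Matrix (Fin 2) (Fin 2) ℝ)
      = (Int.castRingHom ℝ).mapMatrix (γ : Matrix (Fin 2) (Fin 2) ℤ) := by
  rw [Matrix.SpecialLinearGroup.mapGL_coe_matrix]
  rfl

/-- An integer exchange relation `A γ = κ B` gives the same relation in `GL (Fin 2) ℝ`. -/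
theorem lbGL_mul_mapGL {A B : Matrix (Fin 2) (Fin 2) ℤ} (hA : 0 < A.det) (hB : 0 < B.det)
    (γ κ : SL(2, ℤ))
    (h : A * (γ : Matrix (Fin 2) (Fin 2) ℤ) = (κ : Matrix (Fin 2) (Fin 2) ℤ) * B) :
    lbGL A hA * Matrix.SpecialLinearGroup.mapGL ℝ γ
      = Matrix.SpecialLinearGroup.mapGL ℝ κ * lbGL B hB := by
  apply Units.ext
  rw [Units.val_mul, Units.val_mul]
  show ((lbGL A hA : GL (Fin 2) ℝ) : Matrix (Fin 2) (Fin 2) ℝ)
      * ((Matrix.SpecialLinearGroup.mapGL ℝ γ : GL (Fin 2) ℝ) : Matrix (Fin 2) (Fin 2) ℝ)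
    = ((Matrix.SpecialLinearGroup.mapGL ℝ κ : GL (Fin 2) ℝ) : Matrix (Fin 2) (Fin 2) ℝ)
      * ((lbGL B hB : GL (Fin 2) ℝ) : Matrix (Fin 2) (Fin 2) ℝ)
  rw [lbGL_coe, lbGL_coe, h33_mapGL_coe, h33_mapGL_coe, ← map_mul, ← map_mul, h]

/-- The same relation for the action on the upper half plane. -/
theorem lbGL_smul_smul {A B : Matrix (Fin 2) (Fin 2) ℤ} (hA : 0 < A.det) (hB : 0 < B.det)
    (γ κ : SL(2, ℤ))
    (h : A * (γ : Matrix (Fin 2) (Fin 2) ℤ) = (κ : Matrix (Fin 2) (Fin 2) ℤ) * B) (z : ℍ) :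
    lbGL A hA • (γ • z) = κ • (lbGL B hB • z) := by
  have h1 : γ • z = Matrix.SpecialLinearGroup.mapGL ℝ γ • z := rfl
  have h2 : κ • (lbGL B hB • z) = Matrix.SpecialLinearGroup.mapGL ℝ κ • (lbGL B hB • z) := rfl
  rw [h1, h2, ← mul_smul, ← mul_smul, lbGL_mul_mapGL hA hB γ κ h]

/-- Weight two slash by a matrix of positive determinant. -/
theorem h33_slash_two_apply (f : ℍ → ℂ) {g : GL (Fin 2) ℝ} (hg : 0 < g.det.val) (τ : ℍ) :
    (f ∣[(2 : ℤ)] g) τ = f (g • τ) * ((g.det.val : ℂ) / denom g τ ^ 2) := by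
  rw [ModularForm.slash_apply, UpperHalfPlane.σ, if_pos hg]
  simp only [ContinuousAlgEquiv.refl_apply, abs_of_pos hg]
  rw [show (2 : ℤ) - 1 = 1 by norm_num, zpow_one, zpow_neg, show (2 : ℤ) = ((2 : ℕ) : ℤ) by rfl,
    zpow_natCast]
  rw [mul_assoc, div_eq_mul_inv]

namespace LbSys

variable {Γ : Subgroup SL(2, ℤ)} (S : LbSys Γ)

/-- The representatives of a coset system as elements of `GL (Fin 2) ℝ`. -/
noncomputable def gl (i : S.ι) : GL (Fin 2) ℝ := lbGL (S.mat i) (S.det_pos i)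

theorem gl_det_pos (i : S.ι) : 0 < ((S.gl i).det : ℝ) := lbGL_det_pos _ _

theorem gl_coe (i : S.ι) :
    ((S.gl i : GL (Fin 2) ℝ) : Matrix (Fin 2) (Fin 2) ℝ)
      = (Int.castRingHom ℝ).mapMatrix (S.mat i) := rfl

/-- The exchange relation on the upper half plane: `α_i (γ z) = κ_i (α_{σ i} z)`. -/
theorem gl_smul_smul (γ : Γ) (i : S.ι) (z : ℍ) :
    S.gl i • ((γ : SL(2, ℤ)) • z) = (S.kap γ i : SL(2, ℤ)) • (S.gl (S.perm γ i) • z) :=
  lbGL_smul_smul (S.det_pos i) (S.det_pos (S.perm γ i)) _ _ (S.mat_mul γ i) z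

end LbSys

open Fermat.Agent.S21 in
/-- **Period equivariance.**  If `g = ∑ i, f ∣[2] α_i` on `ℍ`, where the `α_i` are the
representatives of a coset system `S` for `Γ₀(N)`, then the period homomorphism of `g` is the
transfer `S.coh` of the period homomorphism of `f`. -/
theorem lb_periodMap_coh {N : ℕ} [NeZero N] (S : LbSys (Gamma0 N))
    (f g : CuspForm (Gamma0 N) 2)
    (hg : ∀ τ : ℍ, g τ = ∑ i, (⇑f ∣[(2 : ℤ)] S.gl i) τ) :
    periodMap N g = S.coh ℂ (periodMap N f) := by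
  classical
  set F : ℍ → ℂ := prim N f with hF
  -- the primitive of `f` as a function on `ℂ`
  have hH : Fermat.Agent.S22.IsPrim (F ∘ ofComplex) ⇑f := fun τ => prim_hasDerivAt f τ
  -- `D := prim g - ∑ i, F ∘ α_i` has zero derivative
  set D : ℍ → ℂ := fun z => prim N g z - ∑ i, F (S.gl i • z) with hD
  have hDder : ∀ τ : ℍ, HasDerivAt (D ∘ ofComplex) 0 ↑τ := by
    intro τ
    have h1 : HasDerivAt (prim N g ∘ ofComplex) (g τ) ↑τ := prim_hasDerivAt g τ
    have h2 : HasDerivAt (fun z : ℂ => ∑ i, (F ∘ ofComplex) (Fermat.Agent.S22.moeb (S.gl i) z))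
        (∑ i, (⇑f ∣[(2 : ℤ)] S.gl i) τ) ↑τ := by
      refine HasDerivAt.fun_sum fun i _ => ?_
      have h3 := (hH.comp_moeb (S.gl_det_pos i)) τ
      rw [h33_slash_two_apply (⇑f) (S.gl_det_pos i) τ]
      exact h3
    have h4 := h1.sub h2
    rw [← hg τ, sub_self] at h4
    refine h4.congr_of_eventuallyEq ?_
    have hopen : IsOpen {z : ℂ | 0 < z.im} := isOpen_upperHalfPlaneSet
    filter_upwards [hopen.mem_nhds τ.im_pos] with z hz
    have hz' : 0 < z.im := hz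
    simp only [hD, Function.comp_apply, Pi.sub_apply]
    congr 1
    refine Finset.sum_congr rfl fun i _ => ?_
    have h5 : Fermat.Agent.S22.moeb (S.gl i) z
        = ((S.gl i • ofComplex z : ℍ) : ℂ) := by
      have := Fermat.Agent.S22.moeb_coe (S.gl_det_pos i) (ofComplex z)
      rw [← this]
      congr 1
      exact (UpperHalfPlane.coe_mk z hz' ▸ by
        rw [ofComplex_apply_of_im_pos hz'])
    rw [h5, ofComplex_apply]
  have hconst : ∀ z w : ℍ, D z = D w := lin_const_of_hasDerivAt_zero hDder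
  -- telescoping
  refine AddMonoidHom.ext fun γ => ?_
  obtain ⟨γ, rfl⟩ := Additive.ofMul.surjective γ
  rw [LbSys.coh_apply, ← prim_smul_sub g γ UpperHalfPlane.I]
  have h6 := hconst ((γ : SL(2, ℤ)) • UpperHalfPlane.I) UpperHalfPlane.I
  simp only [hD] at h6
  have h7 : ∑ i, F (S.gl i • ((γ : SL(2, ℤ)) • UpperHalfPlane.I))
      = ∑ i, (F (S.gl (S.perm γ i) • UpperHalfPlane.I)
          + periodMap N f (Additive.ofMul (S.kap γ i))) := by
    refine Finset.sum_congr rfl fun i _ => ?_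
    rw [S.gl_smul_smul γ i UpperHalfPlane.I,
      ← prim_smul_sub f (S.kap γ i) (S.gl (S.perm γ i) • UpperHalfPlane.I)]
    ring
  have h8 : ∑ i, F (S.gl (S.perm γ i) • UpperHalfPlane.I)
      = ∑ i, F (S.gl i • UpperHalfPlane.I) :=
    Equiv.sum_comp (S.permEquiv γ) (fun i => F (S.gl i • UpperHalfPlane.I))
  rw [h7, Finset.sum_add_distrib, h8] at h6
  linear_combination h6

/-! ### The coset systems of `T_ℓ` and `U_p` -/

theorem lbGL_lbMat_none {ℓ : ℕ} (hℓ : ℓ ≠ 0) (h : 0 < (lbMat ℓ none).det) :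
    lbGL (lbMat ℓ none) h = ModularForm.heckeDiagMatrix ℓ := by
  apply Units.ext
  show ((lbGL (lbMat ℓ none) h : GL (Fin 2) ℝ) : Matrix (Fin 2) (Fin 2) ℝ)
    = ((ModularForm.heckeDiagMatrix ℓ : GL (Fin 2) ℝ) : Matrix (Fin 2) (Fin 2) ℝ)
  rw [lbGL_coe, ModularForm.val_heckeDiagMatrix hℓ, lbMat_none]
  ext i j
  fin_cases i <;> fin_cases j <;> simp

theorem lbGL_lbMat_some {ℓ : ℕ} (hℓ : ℓ ≠ 0) (j : Fin ℓ) (h : 0 < (lbMat ℓ (some j)).det) :
    lbGL (lbMat ℓ (some j)) h = ModularForm.heckeMatrix ℓ (j : ℕ) := by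
  apply Units.ext
  show ((lbGL (lbMat ℓ (some j)) h : GL (Fin 2) ℝ) : Matrix (Fin 2) (Fin 2) ℝ)
    = ((ModularForm.heckeMatrix ℓ (j : ℕ) : GL (Fin 2) ℝ) : Matrix (Fin 2) (Fin 2) ℝ)
  rw [lbGL_coe, ModularForm.val_heckeMatrix hℓ, lbMat_some]
  ext a b
  fin_cases a <;> fin_cases b <;> simp

/-- The period map intertwines `T_ℓ` on cusp forms with the transfer operator of `lbSysT`. -/
theorem lb_periodMap_T {N : ℕ} [NeZero N] {ℓ : ℕ} (hℓ : ℓ.Prime) (hℓN : ¬ ℓ ∣ N)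
    (f : CuspForm (Gamma0 N) 2) :
    periodMap N (CuspForm.heckeTLin 2 hℓ hℓN f) = (lbSysT hℓ hℓN).coh ℂ (periodMap N f) := by
  refine lb_periodMap_coh (lbSysT hℓ hℓN) f (CuspForm.heckeTLin 2 hℓ hℓN f) fun τ => ?_
  rw [CuspForm.heckeTLin_apply_apply, ModularForm.heckeT_def]
  show _ = ∑ i : Option (Fin ℓ), (⇑f ∣[(2 : ℤ)] lbGL (lbMat ℓ i) (lbMat_det_pos hℓ.pos i)) τ
  rw [Fintype.sum_option, lbGL_lbMat_none hℓ.ne_zero]
  simp only [lbGL_lbMat_some hℓ.ne_zero]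
  rw [Pi.add_apply, Finset.sum_apply, add_comm]
  congr 1
  exact (Fin.sum_univ_eq_sum_range
    (fun j => (⇑f ∣[(2 : ℤ)] ModularForm.heckeMatrix ℓ j) τ) ℓ).symm

/-- The period map intertwines `U_p` on cusp forms with the transfer operator of `lbSysU`. -/
theorem lb_periodMap_U {N : ℕ} [NeZero N] {p : ℕ} (hp : p.Prime) (hpN : p ∣ N)
    (f : CuspForm (Gamma0 N) 2) :
    periodMap N (CuspForm.heckeULin 2 hpN f) = (lbSysU hp hpN).coh ℂ (periodMap N f) := by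
  refine lb_periodMap_coh (lbSysU hp hpN) f (CuspForm.heckeULin 2 hpN f) fun τ => ?_
  rw [CuspForm.heckeULin_apply_apply, ModularForm.heckeU_def]
  show _ = ∑ j : Fin p, (⇑f ∣[(2 : ℤ)] lbGL (lbMat p (some j)) (lbMat_det_pos hp.pos (some j))) τ
  simp only [lbGL_lbMat_some hp.ne_zero]
  rw [Finset.sum_apply]
  exact (Fin.sum_univ_eq_sum_range
    (fun j => (⇑f ∣[(2 : ℤ)] ModularForm.heckeMatrix p j) τ) p).symm

end Fermat.Agent.S16
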