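/-
S16 / lower bound, L-coh (helper2).  Period-map Hecke equivariance in helper7's `LbSys`
language (statements C4 of the skeleton), deduced from `HeckePeriod` through `LB/BridgeHH`.
-/
import Mathlib
import Fermat.Agent.S16.LB.BridgeHH
import Fermat.Agent.S16.HeckePeriod

set_option autoImplicit false

open CongruenceSubgroup ModularCurve ModularCurve.Period
open scoped MatrixGroups

namespace Fermat.Agent.S16

theorem hh_lb_periodMap_T {N : ℕ} [NeZero N] {ℓ : ℕ} (hℓ : ℓ.Prime) (hℓN : ¬ ℓ ∣ N)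
    (f : CuspForm (Gamma0 N) 2) :
    periodMap N (CuspForm.heckeTLin 2 hℓ hℓN f) = (lbSysT hℓ hℓN).coh ℂ (periodMap N f) := by
  rw [hh_lbSysT_coh, heckeHom_periodMap_T hℓ hℓN f]

theorem hh_lb_periodMap_U {N : ℕ} [NeZero N] {p : ℕ} (hp : p.Prime) (hpN : p ∣ N)
    (f : CuspForm (Gamma0 N) 2) :
    periodMap N (CuspForm.heckeULin 2 hpN f) = (lbSysU hp hpN).coh ℂ (periodMap N f) := by
  rw [hh_lbSysU_coh, heckeHom_periodMap_U hp hpN f]

end Fermat.Agent.S16
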